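import Fermat.Agent.S15.Mod.D.Export
import Fermat.Agent.S15.Mod.Ev.Val
import Fermat.Agent.S15.Cusp.Hol
import Fermat.Agent.EL.MapPt

/-!
# S15-MOD-D : the place of `FF Q̄ N` attached to `(W, Q)`

Glue of `D.exists_tau` (over `ℂ`), `Ev.exists_place_val` and `Cusp.Hol.evF_gF`.
-/

set_option autoImplicit false

open UpperHalfPlane ModularForm EisensteinSeries

namespace Fermat.Agent.S15.Mod.D

open WeierstrassCurve WeierstrassCurve.Affine Fermat.Agent.S05 AlgebraicCurve ModularCurve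
  Fermat.Agent.S15.Cusp Fermat.Agent.GR

theorem Place_xc_mapPt {F F' : Type} [Field F] [Field F'] [DecidableEq F] [DecidableEq F']
    (f : F →+* F') {V : WeierstrassCurve F} {V' : WeierstrassCurve F'} (h : V.map f = V')
    (P : V.toAffine.Point) : xc (EL.mapPt f h P) = f (xc P) := by
  rcases P with _ | ⟨x, y, hxy⟩
  · exact (map_zero f).symm
  · rfl

/-- the invariant `p¹² ∏_{0<k<p} Ψ₂Sq(x(kQ))² / Δ^(p-1)` of `(W, Q)`. -/
noncomputable def gam {F : Type} [Field F] [DecidableEq F] (W : WeierstrassCurve.Affine F) (p : ℕ)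
    (Q : W.Point) : F :=
  (p : F) ^ 12 * (∏ k ∈ Finset.Ico 1 p, (W.Ψ₂Sq.eval (xc (k • Q))) ^ 2) / W.Δ ^ (p - 1)

theorem gam_map {F F' : Type} [Field F] [Field F'] [DecidableEq F] [DecidableEq F']
    (f : F →+* F') (V : WeierstrassCurve F) (p : ℕ) (Q : V.toAffine.Point) :
    gam (V.map f).toAffine p (EL.mapPt f rfl Q) = f (gam V.toAffine p Q) := by
  unfold gam
  rw [map_div₀, map_mul, map_pow, map_pow, map_natCast, map_prod, WeierstrassCurve.map_Δ]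
  congr 2
  refine Finset.prod_congr rfl fun k _ => ?_
  rw [map_pow, ← map_nsmul, Place_xc_mapPt, WeierstrassCurve.map_Ψ₂Sq, Polynomial.eval_map,
    Polynomial.eval₂_at_apply]

/-- over `ℂ`: `j(τ) = j(W)`, `Δ(τ)/Δ(pτ) = gam`. -/
theorem exists_tau_gam [DecidableEq ℂ] (W : WeierstrassCurve.Affine ℂ) (hΔ : W.Δ ≠ 0)
    (hc4 : W.c₄ ≠ 0) (hc6 : W.c₆ ≠ 0) {p : ℕ} (hp : p.Prime) (hp2 : p ≠ 2) (Q : W.Point)
    (hQ : addOrderOf Q = p) :
    ∃ τ : ℍ, S24.jfun τ = W.c₄ ^ 3 / W.Δ ∧ LP.EIS.dFun p τ = gam W p Q := by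
  obtain ⟨τ, h1, h2⟩ := exists_tau W hΔ hc4 hc6 hp hp2 Q hQ
  refine ⟨τ, ?_, ?_⟩
  · rw [S24.jfun, div_eq_div_iff (discriminant_ne_zero τ) hΔ, h1]
  · have h3 := h2 (S28.affH p 0 1 τ) (by
      rw [S28.coe_affH 0 hp.pos one_pos]
      simp)
    rw [LP.EIS.dFun, gam, div_eq_div_iff (discriminant_ne_zero _) (pow_ne_zero _ hΔ), h3]

/-- **MOD-PT.** the place of `FF Q̄ N` (`p ∣ N`) attached to `(W, Q)`. -/
theorem exists_place [DecidableEq Qb] (W : WeierstrassCurve Qb) (hΔ : W.Δ ≠ 0) (hc4 : W.c₄ ≠ 0)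
    (hc6 : W.c₆ ≠ 0) {p : ℕ} [NeZero p] (hp : p.Prime) (hp2 : p ≠ 2) (Q : W.toAffine.Point)
    (hQ : addOrderOf Q = p) (N : ℕ) [NeZero N] (h : p ∣ N) :
    ∃ x : Place Qb (FF Qb N), 0 ≤ x.ord (GR.A.jF Qb N) ∧
      S17.FF.val x (GR.A.jF Qb N) = W.c₄ ^ 3 / W.Δ ∧
      x.ord (gF p N h) = 0 ∧ S17.FF.val x (gF p N h) = gam W.toAffine p Q := by
  classical
  obtain ⟨ι⟩ : Nonempty (Qb →+* ℂ) := by
    have : Algebra.IsAlgebraic ℚ Qb := AlgebraicClosure.isAlgebraic ℚ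
    exact ⟨(IsAlgClosed.lift (R := ℚ) (S := Qb) (M := ℂ)).toRingHom⟩
  have hι : Function.Injective ι := ι.injective
  have hne : ∀ a : Qb, a ≠ 0 → ι a ≠ 0 := fun a ha => (map_ne_zero ι).2 ha
  obtain ⟨τ, h1, h2⟩ := exists_tau_gam (W.map ι).toAffine
    (by rw [WeierstrassCurve.map_Δ]; exact hne _ hΔ)
    (by rw [WeierstrassCurve.map_c₄]; exact hne _ hc4)
    (by rw [WeierstrassCurve.map_c₆]; exact hne _ hc6) hp hp2 (EL.mapPt ι rfl Q)
    (by rw [addOrderOf_injective _ (EL.mapPt_injective ι rfl), hQ])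
  rw [gam_map] at h2
  rw [WeierstrassCurve.map_Δ, WeierstrassCurve.map_c₄, ← map_pow, ← map_div₀] at h1
  obtain ⟨x, hx1, hx2, -, hx4, hx5⟩ := Ev.exists_place_val ι N τ _ h1
  refine ⟨x, hx1, hx2, hx5 _ _ (evF_gF ι p N h) ?_, hx4 _ _ _ (evF_gF ι p N h) h2⟩
  show LP.EIS.dFun p τ ≠ 0
  exact div_ne_zero (discriminant_ne_zero _) (discriminant_ne_zero _)

end Fermat.Agent.S15.Mod.D
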