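import Fermat.Agent.S15.Mod.D.Defs

/-!
# S15-MOD-D : combinatorics of `L ⊆ L' = divPair L n`

Everything follows from `PeriodPair.mem_lattice` and
`PeriodPair.mul_ω₁_add_mul_ω₂_mem_lattice : (α : ℂ) * ω₁ + β * ω₂ ∈ L.lattice ↔ α.den = 1 ∧ β.den = 1`
(`α β : ℚ`).  Mathlib only.
-/

set_option autoImplicit false

open scoped Topology PeriodPair

namespace Fermat.Agent.S15.Mod.D

theorem LatC_den (a : ℤ) : ((a : ℚ) / 2).den = 1 ↔ (2 : ℤ) ∣ a := by
  constructor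
  · intro h
    have h1 : ((((a : ℚ) / 2).num : ℤ) : ℚ) = (a : ℚ) / 2 := (Rat.den_eq_one_iff _).mp h
    refine ⟨((a : ℚ) / 2).num, ?_⟩
    have h2 : (a : ℚ) = 2 * ((((a : ℚ) / 2).num : ℤ) : ℚ) := by
      rw [h1]
      ring
    exact_mod_cast h2
  · rintro ⟨k, rfl⟩
    have h1 : ((2 * k : ℤ) : ℚ) / 2 = ((k : ℤ) : ℚ) := by
      push_cast
      ring
    rw [h1]
    exact Rat.den_intCast k

theorem LatC_mem_iff (M : PeriodPair) (a b : ℤ) :
    (a : ℂ) / 2 * M.ω₁ + (b : ℂ) / 2 * M.ω₂ ∈ M.lattice ↔ (2 : ℤ) ∣ a ∧ (2 : ℤ) ∣ b := by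
  have h := PeriodPair.mul_ω₁_add_mul_ω₂_mem_lattice (L := M) (α := (a : ℚ) / 2) (β := (b : ℚ) / 2)
  rw [LatC_den, LatC_den] at h
  rw [← h]
  push_cast
  rfl

theorem LatC_halfSys (M : PeriodPair) (h : Fin 3 → ℂ) (a b : Fin 3 → ℤ)
    (hh : ∀ i, h i = (a i : ℂ) / 2 * M.ω₁ + (b i : ℂ) / 2 * M.ω₂)
    (h0 : a 0 % 2 = 1 ∧ b 0 % 2 = 0) (h1 : a 1 % 2 = 0 ∧ b 1 % 2 = 1)
    (h2 : a 2 % 2 = 1 ∧ b 2 % 2 = 1) : HalfSys M h := by
  refine ⟨fun i => ?_, fun i => ?_, fun i j hij => ?_, fun w hw hw' => ?_⟩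
  · refine PeriodPair.mem_lattice.mpr ⟨a i, b i, ?_⟩
    rw [hh]
    ring
  · rw [hh, LatC_mem_iff]
    fin_cases i <;> simp only [Fin.zero_eta, Fin.mk_one, Fin.reduceFinMk] <;> omega
  · have e : h i - h j = ((a i - a j : ℤ) : ℂ) / 2 * M.ω₁ + ((b i - b j : ℤ) : ℂ) / 2 * M.ω₂ := by
      rw [hh, hh]
      push_cast
      ring
    rw [e, LatC_mem_iff]
    fin_cases i <;> fin_cases j <;>
      simp only [Fin.zero_eta, Fin.mk_one, Fin.reduceFinMk, ne_eq, not_true_eq_false] at hij ⊢ <;>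
      omega
  · obtain ⟨m, n, e⟩ := PeriodPair.mem_lattice.mp hw
    have ew : w = (m : ℂ) / 2 * M.ω₁ + (n : ℂ) / 2 * M.ω₂ := by
      linear_combination (-1 / 2 : ℂ) * e
    rw [ew, LatC_mem_iff] at hw'
    have key : ∀ i, w - h i =
        ((m - a i : ℤ) : ℂ) / 2 * M.ω₁ + ((n - b i : ℤ) : ℂ) / 2 * M.ω₂ := by
      intro i
      rw [ew, hh]
      push_cast
      ring
    by_cases hm : (2 : ℤ) ∣ m
    · refine ⟨1, ?_⟩
      rw [key, LatC_mem_iff]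
      have hn : ¬ (2 : ℤ) ∣ n := fun hn => hw' ⟨hm, hn⟩
      constructor <;> omega
    · by_cases hn : (2 : ℤ) ∣ n
      · refine ⟨0, ?_⟩
        rw [key, LatC_mem_iff]
        constructor <;> omega
      · refine ⟨2, ?_⟩
        rw [key, LatC_mem_iff]
        constructor <;> omega

variable (L : PeriodPair) (n : ℕ) (hn : n ≠ 0)

theorem halfSys_self : HalfSys L (hp L) := by
  refine LatC_halfSys L (hp L) ![1, 0, 1] ![0, 1, 1] (fun i => ?_) (by simp) (by simp) (by simp)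
  fin_cases i
  · simp [hp]
    ring
  · simp [hp]
    ring
  · simp [hp]
    ring

/-- `n` odd: `ω₂/2 = ((n+1)/2) ω₂/n - ... `, i.e. in the basis `(ω₁, ω₂/n)` of `L'` the three points
are `(1/2, 0)`, `(0, n/2)`, `(1/2, n/2)`. -/
theorem halfSys_div (hodd : Odd n) : HalfSys (divPair L n hn) (hp L) := by
  have hn' : (n : ℂ) ≠ 0 := by exact_mod_cast hn
  have hn2 : (n : ℤ) % 2 = 1 := by
    obtain ⟨k, rfl⟩ := hodd
    push_cast
    omega
  refine LatC_halfSys (divPair L n hn) (hp L) ![1, 0, 1] ![0, n, n] (fun i => ?_) (by simp)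
    (by simpa using hn2) (by simpa using hn2)
  fin_cases i
  · simp [hp]
    ring
  · simp [hp]
    field_simp
  · simp [hp]
    field_simp

theorem LatC_le_div {x : ℂ} (hx : x ∈ L.lattice) : x ∈ (divPair L n hn).lattice := by
  have hn' : (n : ℂ) ≠ 0 := by exact_mod_cast hn
  obtain ⟨a, b, rfl⟩ := PeriodPair.mem_lattice.mp hx
  refine PeriodPair.mem_lattice.mpr ⟨a, b * n, ?_⟩
  rw [divPair_ω₁, divPair_ω₂]
  push_cast
  field_simp

theorem LatC_cpt_mem (k : ℕ) : cpt L n k ∈ (divPair L n hn).lattice := by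
  refine PeriodPair.mem_lattice.mpr ⟨0, k, ?_⟩
  rw [divPair_ω₂, cpt]
  push_cast
  ring

/-- `h_i + c_k ∉ L` -/
theorem hp_add_cpt_not_mem (hodd : Odd n) (i : Fin 3) {k : ℕ} (hkn : k < n) :
    hp L i + cpt L n k ∉ L.lattice := by
  have hn : n ≠ 0 := by omega
  intro h
  have h1 := LatC_le_div L n hn h
  have h2 := (divPair L n hn).lattice.sub_mem h1 (LatC_cpt_mem L n hn k)
  rw [add_sub_cancel_right] at h2
  exact (halfSys_div L n hn hodd).not_mem i h2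

end Fermat.Agent.S15.Mod.D
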