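import Fermat.Agent.S15.Mod.D.Defs
import Fermat.Agent.S15.Mod.U.Deriv

/-!
# S15-MOD-D : orders of `z ↦ ℘ (z + c) - e`

Mathlib: `PeriodPair.meromorphic_weierstrassP`, `PeriodPair.order_weierstrassP`,
`PeriodPair.analyticOnNhd_weierstrassP`, `meromorphicOrderAt_comp_add_const_eq_meromorphicOrderAt`,
`meromorphicOrderAt_add_eq_left_of_lt`, `AnalyticAt.meromorphicOrderAt_eq`,
`AnalyticAt.analyticOrderAt_...`, `natCast_le_analyticOrderAt`, `meromorphicOrderAt_deriv_eq_sub_one`.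
-/

set_option autoImplicit false

open scoped Topology PeriodPair

namespace Fermat.Agent.S15.Mod.D

open Fermat.Agent.S15.Mod.U

variable (M : PeriodPair)

theorem OrdB_deriv_zero {a : ℂ} (h2 : 2 * a ∈ M.lattice) : ℘'[M] a = 0 := by
  have h1 : ℘'[M] (a - 2 * a) = ℘'[M] a := M.derivWeierstrassP_sub_coe a ⟨2 * a, h2⟩
  have h3 : a - 2 * a = -a := by ring
  rw [h3, M.derivWeierstrassP_neg] at h1
  have : (2 : ℂ) * ℘'[M] a = 0 := by linear_combination -h1
  simpa using this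

theorem OrdB_analytic {a : ℂ} (ha : a ∉ M.lattice) :
    AnalyticAt ℂ (fun w => ℘[M] w - ℘[M] a) a :=
  (M.analyticOnNhd_weierstrassP a ha).sub analyticAt_const

theorem OrdB_deriv {a : ℂ} (ha : a ∉ M.lattice) :
    deriv (fun w => ℘[M] w - ℘[M] a) =ᶠ[𝓝 a] ℘'[M] := by
  have hU : IsOpen ((M.lattice : Set ℂ)ᶜ) := M.isClosed_lattice.isOpen_compl
  filter_upwards [hU.mem_nhds ha] with w hw
  exact ((hasDerivAt_wp M hw).sub_const _).deriv

theorem OrdB_two_le {a : ℂ} (ha : a ∉ M.lattice) (h2 : 2 * a ∈ M.lattice) :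
    (2 : ℕ∞) ≤ analyticOrderAt (fun w => ℘[M] w - ℘[M] a) a := by
  have h := (natCast_le_analyticOrderAt_iff_iteratedDeriv_eq_zero (n := 2)
    (OrdB_analytic M ha)).2 ?_
  · exact_mod_cast h
  intro i hi
  interval_cases i
  · simp
  · rw [iteratedDeriv_one, (OrdB_deriv M ha).eq_of_nhds, OrdB_deriv_zero M h2]

/-- at a half period `a = z + c` the analytic function `w ↦ ℘ (w + c) - ℘ a` vanishes at `z` together
with its derivative `℘' a = 0` (`U.hasDerivAt_wp`, `U.deriv_eq_zero_of_two_mul_mem` is in `U/Inj`;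
here: `℘' a = ℘' (a - 2a) = ℘' (-a) = -℘' a`): order `≥ 2`. -/
theorem two_le_order_of_half {c z : ℂ} (hz : z + c ∉ M.lattice) (h2 : 2 * (z + c) ∈ M.lattice) :
    (2 : ℤ) ≤ meromorphicOrderAt (fun w => ℘[M] (w + c) - ℘[M] (z + c)) z := by
  have h1 : (fun w => ℘[M] (w + c) - ℘[M] (z + c))
      = (fun w => ℘[M] w - ℘[M] (z + c)) ∘ (· + c) := rfl
  rw [h1, meromorphicOrderAt_comp_add_const_eq_meromorphicOrderAt,
    (OrdB_analytic M hz).meromorphicOrderAt_eq]
  have h3 := OrdB_two_le M hz h2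
  generalize analyticOrderAt (fun w => ℘[M] w - ℘[M] (z + c)) (z + c) = o at h3
  cases o with
  | top => simp
  | coe k =>
    have : 2 ≤ k := by exact_mod_cast h3
    simp only [ENat.map_natCast]
    exact_mod_cast this

/-- the second derivative at `z` is `6 ℘ z ² - g₂/2 ≠ 0` (`U.hasDerivAt_wp'`): order exactly `2`. -/
theorem order_eq_two_of_half {z : ℂ} (hz : z ∉ M.lattice) (h2 : 2 * z ∈ M.lattice)
    (hne : 6 * ℘[M] z ^ 2 - M.g₂ / 2 ≠ 0) :
    meromorphicOrderAt (fun w => ℘[M] w - ℘[M] z) z = (2 : ℤ) := by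
  have h3 : analyticOrderAt (fun w => ℘[M] w - ℘[M] z) z = (2 : ℕ) := by
    rw [analyticOrderAt_eq_nat_iff_iteratedDeriv_eq_zero (OrdB_analytic M hz)]
    refine ⟨?_, ?_⟩
    · intro i hi
      interval_cases i
      · simp
      · rw [iteratedDeriv_one, (OrdB_deriv M hz).eq_of_nhds, OrdB_deriv_zero M h2]
    · rw [iteratedDeriv_succ, iteratedDeriv_one, (OrdB_deriv M hz).deriv_eq,
        (hasDerivAt_wp' M hz).deriv]
      exact hne
  rw [(OrdB_analytic M hz).meromorphicOrderAt_eq, h3]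
  rfl

end Fermat.Agent.S15.Mod.D
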