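import Fermat.Agent.S15.Mod.D.RootsB

/-!
# S15-MOD-D : the values `e_i = ℘ (h_i)` are the three distinct roots of `4x³ - g₂x - g₃`
-/

set_option autoImplicit false

open scoped Topology PeriodPair

namespace Fermat.Agent.S15.Mod.D

open Fermat.Agent.S15.Mod.U

variable {M : PeriodPair} {h : Fin 3 → ℂ}

/-- compare coefficients in `cubic_factor` (e.g. evaluate at `x = 0, 1, -1`) -/
theorem ev_rel (H : HalfSys M h) (hΔ : disc M ≠ 0) :
    ev M h 0 + ev M h 1 + ev M h 2 = 0 ∧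
    M.g₂ = -4 * (ev M h 0 * ev M h 1 + ev M h 0 * ev M h 2 + ev M h 1 * ev M h 2) ∧
    M.g₃ = 4 * (ev M h 0 * ev M h 1 * ev M h 2) := by
  have h0 := cubic_factor H hΔ 0
  have h1 := cubic_factor H hΔ 1
  have hm1 := cubic_factor H hΔ (-1)
  refine ⟨?_, ?_, ?_⟩
  · linear_combination (1 / 8) * (h1 + hm1 - 2 * h0)
  · linear_combination (-(1 / 2)) * (h1 - hm1)
  · linear_combination (-1) * h0

/-- `ev_rel` and `ring`-type algebra (eliminate `e₂ = -e₀-e₁`) -/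
theorem disc_eq (H : HalfSys M h) (hΔ : disc M ≠ 0) :
    disc M = 16 * ((ev M h 0 - ev M h 1) * (ev M h 0 - ev M h 2) * (ev M h 1 - ev M h 2)) ^ 2 := by
  obtain ⟨hs, hg2, hg3⟩ := ev_rel H hΔ
  have he2 : ev M h 2 = -ev M h 0 - ev M h 1 := by linear_combination hs
  unfold disc
  rw [hg2, hg3, he2]
  ring

/-- `℘' z ² = 4 ∏ (℘ z - e_i)` -/
theorem deriv_sq_eq (H : HalfSys M h) (hΔ : disc M ≠ 0) {z : ℂ} (hz : z ∉ M.lattice) :
    ℘'[M] z ^ 2 = 4 * (℘[M] z - ev M h 0) * (℘[M] z - ev M h 1) * (℘[M] z - ev M h 2) := by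
  rw [M.derivWeierstrassP_sq z hz, cubic_factor H hΔ]

/-- `℘' z ² = 0` by `cubic_ev`, so `2 z ∈ M`, `z - h i ∈ M` for some `i`, `ev i = ev j`, `i = j`. -/
theorem sub_mem_of_wp_eq_ev (H : HalfSys M h) (hΔ : disc M ≠ 0) {z : ℂ} (hz : z ∉ M.lattice)
    {j : Fin 3} (hj : ℘[M] z = ev M h j) : z - h j ∈ M.lattice := by
  have h0 : ℘'[M] z = 0 := by
    have h1 := M.derivWeierstrassP_sq z hz
    rw [hj, cubic_ev H j] at h1
    exact pow_eq_zero_iff (two_ne_zero) |>.1 h1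
  have h2z : 2 * z ∈ M.lattice := by
    by_contra h2
    exact deriv_ne_zero M hΔ hz h2 h0
  obtain ⟨i, hi⟩ := H.cover z h2z hz
  have hzi : ℘[M] z = ev M h i := by
    have := M.weierstrassP_add_coe (h i) ⟨z - h i, hi⟩
    rw [show h i + ((⟨z - h i, hi⟩ : M.lattice) : ℂ) = z by show h i + (z - h i) = z; ring] at this
    exact this
  have hij : i = j := ev_injective H hΔ (hzi.symm.trans hj)
  rwa [hij] at hi

/-- `6 e_j² - g₂/2 = 2 (e_j - e_i)(e_j - e_k) ≠ 0` (or: `U.disc_eq_zero_of_double_root`) -/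
theorem second_deriv_ne_zero (H : HalfSys M h) (hΔ : disc M ≠ 0) (j : Fin 3) :
    6 * ev M h j ^ 2 - M.g₂ / 2 ≠ 0 := fun h0 =>
  hΔ (disc_eq_zero_of_double_root (cubic_ev H j) h0)

end Fermat.Agent.S15.Mod.D
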