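import Fermat.Agent.S15.Mod.D.QMer
import Fermat.Agent.S15.Mod.D.LatC
import Fermat.Agent.S15.Mod.D.OrdB
import Fermat.Agent.S15.Mod.D.RootsC

/-!
# S15-MOD-D : the quotient `∏_k (℘_L (z + c_k) - e_j) / (℘_{L'} z - e'_j)` has no poles
-/

set_option autoImplicit false

open scoped Topology PeriodPair

namespace Fermat.Agent.S15.Mod.D

open Fermat.Agent.S15.Mod.U

variable (L : PeriodPair) (n : ℕ) (hn : n ≠ 0)

theorem QDen_den_eq (j : Fin 3) : den L n hn j =
    fun w => ℘[divPair L n hn] (w + 0) - ev (divPair L n hn) (hp L) j := by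
  funext w
  rw [add_zero]
  rfl

theorem order_den_pole (j : Fin 3) {z : ℂ} (hz : z ∈ (divPair L n hn).lattice) :
    meromorphicOrderAt (den L n hn j) z = (-2 : ℤ) := by
  rw [QDen_den_eq]
  exact order_wp_shift_pole (divPair L n hn) _ (by rwa [add_zero])

/-- `order_eq_two_of_half` for `M = L'` at `z ≡ h_j`, `second_deriv_ne_zero`, `halfSys_div` -/
theorem order_den_half (hodd : Odd n) (hΔ' : disc (divPair L n hn) ≠ 0) (j : Fin 3) {z : ℂ}
    (hz : z - hp L j ∈ (divPair L n hn).lattice) :
    meromorphicOrderAt (den L n hn j) z = (2 : ℤ) := by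
  have H := halfSys_div L n hn hodd
  have hwp : ℘[divPair L n hn] z = ev (divPair L n hn) (hp L) j := by
    have h1 := (divPair L n hn).weierstrassP_add_coe (hp L j) ⟨_, hz⟩
    simp only [add_sub_cancel] at h1
    exact h1
  have hznm : z ∉ (divPair L n hn).lattice := by
    intro h1
    apply H.not_mem j
    have h2 := (divPair L n hn).lattice.sub_mem h1 hz
    rwa [sub_sub_cancel] at h2
  have h2z : 2 * z ∈ (divPair L n hn).lattice := by
    have h2 := (divPair L n hn).lattice.add_mem ((divPair L n hn).lattice.add_mem hz hz)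
      (H.two_mem j)
    have h3 : z - hp L j + (z - hp L j) + 2 * hp L j = 2 * z := by ring
    rwa [h3] at h2
  have hne : 6 * ℘[divPair L n hn] z ^ 2 - (divPair L n hn).g₂ / 2 ≠ 0 := by
    rw [hwp]
    exact second_deriv_ne_zero H hΔ' j
  have h4 := order_eq_two_of_half (divPair L n hn) hznm h2z hne
  rw [hwp] at h4
  exact h4

/-- `z ∉ L'`, `z ≢ h_j`: `den` is analytic and does not vanish at `z` (`sub_mem_of_wp_eq_ev`) -/
theorem order_den_else (hodd : Odd n) (hΔ' : disc (divPair L n hn) ≠ 0) (j : Fin 3) {z : ℂ}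
    (hz : z ∉ (divPair L n hn).lattice) (hz' : z - hp L j ∉ (divPair L n hn).lattice) :
    meromorphicOrderAt (den L n hn j) z = 0 := by
  have H := halfSys_div L n hn hodd
  have han : AnalyticAt ℂ (den L n hn j) z := by
    rw [QDen_den_eq]
    exact analyticAt_wp_shift (divPair L n hn) _ (by rwa [add_zero])
  have hne : den L n hn j z ≠ 0 := by
    intro h0
    exact hz' (sub_mem_of_wp_eq_ev H hΔ' hz (sub_eq_zero.1 h0))
  rw [han.meromorphicOrderAt_eq, analyticOrderAt_eq_zero.mpr (Or.inr hne)]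
  rfl

end Fermat.Agent.S15.Mod.D
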