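import Fermat.Agent.S15.Mod.D.QNum
import Fermat.Agent.S15.Mod.D.QDen

/-!
# S15-MOD-D : the quotient `∏_k (℘_L (z + c_k) - e_j) / (℘_{L'} z - e'_j)` has no poles
-/

set_option autoImplicit false

open scoped Topology PeriodPair

namespace Fermat.Agent.S15.Mod.D

open Fermat.Agent.S15.Mod.U

variable (L : PeriodPair) (n : ℕ) (hn : n ≠ 0)

theorem QOrd_aux {a : WithTop ℤ} {m : ℤ} (h : (m : WithTop ℤ) ≤ a) :
    0 ≤ a + -((m : ℤ) : WithTop ℤ) := by
  cases a with
  | top => simp
  | coe a =>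
    have h' : m ≤ a := by exact_mod_cast h
    have h2 : ((a : WithTop ℤ) + -((m : ℤ) : WithTop ℤ)) = ((a - m : ℤ) : WithTop ℤ) := by
      rw [sub_eq_add_neg]
      rfl
    rw [h2]
    exact_mod_cast sub_nonneg.2 h'

/-- three cases; `meromorphicOrderAt_mul`, `meromorphicOrderAt_inv` (`quo = num * den⁻¹`) -/
theorem order_quo_nonneg (hodd : Odd n) (hΔ' : disc (divPair L n hn) ≠ 0) (j : Fin 3) (z : ℂ) :
    0 ≤ meromorphicOrderAt (quo L n hn j) z := by
  have hq : quo L n hn j = num L n (ev L (hp L) j) * (den L n hn j)⁻¹ := by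
    funext w
    simp only [quo, div_eq_mul_inv, Pi.mul_apply, Pi.inv_apply]
  rw [hq, meromorphicOrderAt_mul (meromorphicAt_num L n _ z) (meromorphicAt_den L n hn j z).inv,
    meromorphicOrderAt_inv]
  by_cases hz : z ∈ (divPair L n hn).lattice
  · rw [order_den_pole L n hn j hz]
    exact QOrd_aux (order_num_pole L n hn _ hz)
  by_cases hz' : z - hp L j ∈ (divPair L n hn).lattice
  · rw [order_den_half L n hn hodd hΔ' j hz']
    exact QOrd_aux (order_num_half L n hn hodd j hz')
  · rw [order_den_else L n hn hodd hΔ' j hz hz', neg_zero, add_zero]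
    exact (analyticAt_num L n hn _ hz).meromorphicOrderAt_nonneg

end Fermat.Agent.S15.Mod.D
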