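import Fermat.Agent.S15.Mod.D.Defs

/-!
# S15-MOD-D : combinatorics of `L ⊆ L' = divPair L n`

Everything follows from `PeriodPair.mem_lattice` and
`PeriodPair.mul_ω₁_add_mul_ω₂_mem_lattice : (α : ℂ) * ω₁ + β * ω₂ ∈ L.lattice ↔ α.den = 1 ∧ β.den = 1`
(`α β : ℚ`).  Mathlib only.
-/

set_option autoImplicit false

open scoped Topology PeriodPair

namespace Fermat.Agent.S15.Mod.D

variable (L : PeriodPair) (n : ℕ) (hn : n ≠ 0)

theorem lattice_le_divPair : L.lattice ≤ (divPair L n hn).lattice := by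
  intro x hx
  have hn' : (n : ℂ) ≠ 0 := by exact_mod_cast hn
  obtain ⟨a, b, rfl⟩ := PeriodPair.mem_lattice.1 hx
  refine PeriodPair.mem_lattice.2 ⟨a, b * n, ?_⟩
  rw [divPair_ω₁, divPair_ω₂]
  push_cast
  field_simp

theorem cpt_mem_divPair (k : ℕ) : cpt L n k ∈ (divPair L n hn).lattice := by
  refine PeriodPair.mem_lattice.2 ⟨0, k, ?_⟩
  rw [divPair_ω₁, divPair_ω₂, cpt]
  push_cast
  ring

/-- `a ω₁ + b ω₂/n + k ω₂/n ∈ L` iff `n ∣ b + k`; take `k = (-b) mod n`. -/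
theorem mem_divPair_iff (z : ℂ) :
    z ∈ (divPair L n hn).lattice ↔ ∃ k ∈ Finset.range n, z + cpt L n k ∈ L.lattice := by
  have hn' : (n : ℂ) ≠ 0 := by exact_mod_cast hn
  have hnZ : (n : ℤ) ≠ 0 := by exact_mod_cast hn
  constructor
  · intro hz
    obtain ⟨a, b, rfl⟩ := PeriodPair.mem_lattice.1 hz
    rw [divPair_ω₁, divPair_ω₂]
    have hk0 : 0 ≤ (-b) % (n : ℤ) := Int.emod_nonneg _ hnZ
    have hk1 : (-b) % (n : ℤ) < n := Int.emod_lt_of_pos _ (by positivity)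
    refine ⟨((-b) % (n : ℤ)).toNat, ?_, ?_⟩
    · rw [Finset.mem_range]
      omega
    · refine PeriodPair.mem_lattice.2 ⟨a, -((-b) / (n : ℤ)), ?_⟩
      have h1 : (((-b) % (n : ℤ)).toNat : ℤ) = (-b) % (n : ℤ) := Int.toNat_of_nonneg hk0
      have h2 : (-b) % (n : ℤ) = -b - n * ((-b) / (n : ℤ)) := by
        have := Int.emod_add_mul_ediv (-b) n
        linarith
      have h3 : ((((-b) % (n : ℤ)).toNat : ℕ) : ℂ) = -(b : ℂ) - n * (((-b) / (n : ℤ) : ℤ) : ℂ) := by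
        have : ((((-b) % (n : ℤ)).toNat : ℤ) : ℂ) = ((-b - n * ((-b) / (n : ℤ)) : ℤ) : ℂ) := by
          rw [h1, h2]
        push_cast at this
        exact this
      rw [cpt, h3]
      push_cast
      field_simp
      ring
  · rintro ⟨k, _, hk⟩
    have h1 := lattice_le_divPair L n hn hk
    have h2 := cpt_mem_divPair L n hn k
    have h3 := sub_mem h1 h2
    rwa [add_sub_cancel_right] at h3

@[simp] theorem cpt_zero : cpt L n 0 = 0 := by simp [cpt]

include hn in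
/-- `c_{k+1} = c_k + ω₂/n`, `c_n = ω₂ ∈ L` -/
theorem cpt_self : cpt L n n = L.ω₂ := by
  have hn' : (n : ℂ) ≠ 0 := by exact_mod_cast hn
  rw [cpt, mul_div_cancel₀ _ hn']

end Fermat.Agent.S15.Mod.D
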