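import Fermat.Agent.S15.Mod.D.QDefs
import Fermat.Agent.S15.Mod.D.LatA

/-!
# S15-MOD-D : the quotient `∏_k (℘_L (z + c_k) - e_j) / (℘_{L'} z - e'_j)` has no poles
-/

set_option autoImplicit false

open scoped Topology PeriodPair

namespace Fermat.Agent.S15.Mod.D


variable (L : PeriodPair) (n : ℕ) (hn : n ≠ 0)

theorem num_add_lattice (e z : ℂ) {l : ℂ} (hl : l ∈ L.lattice) :
    num L n e (z + l) = num L n e z := by
  unfold num
  refine Finset.prod_congr rfl (fun k _ => ?_)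
  rw [show z + l + cpt L n k = z + cpt L n k + ((⟨l, hl⟩ : L.lattice) : ℂ) by
    simp only []
    ring, L.weierstrassP_add_coe]

include hn in
/-- shift by `ω₂/n`: `Finset.prod_range_succ'` / `Finset.prod_range_succ`, `c_k + ω₂/n = c_{k+1}`,
the last factor `℘ (z + c_n) = ℘ (z + ω₂) = ℘ (z + c_0)`. -/
theorem num_add_step (e z : ℂ) : num L n e (z + L.ω₂ / n) = num L n e z := by
  have h1 : ∀ k : ℕ, z + L.ω₂ / n + cpt L n k = z + cpt L n (k + 1) := by
    intro k
    unfold cpt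
    push_cast
    ring
  have h2 : ℘[L] (z + cpt L n n) = ℘[L] (z + cpt L n 0) := by
    rw [cpt_self L n hn, cpt_zero, add_zero]
    exact L.weierstrassP_add_coe z ⟨L.ω₂, L.ω₂_mem_lattice⟩
  have h3 : ∀ (N : ℕ), N ≠ 0 → ∀ f : ℕ → ℂ, f N = f 0 →
      ∏ k ∈ Finset.range N, f (k + 1) = ∏ k ∈ Finset.range N, f k := by
    intro N hN f hf
    obtain ⟨N', rfl⟩ := Nat.exists_eq_succ_of_ne_zero hN
    rw [Finset.prod_range_succ, Finset.prod_range_succ' f, hf]
  unfold num
  simp_rw [h1]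
  exact h3 n hn (fun k => ℘[L] (z + cpt L n k) - e) (by simp only [h2])

/-- `L'` is spanned by `ω₁ ∈ L` and `ω₂/n`: `Submodule.span_induction` (also negatives) or
`mem_lattice` + induction on the integer coefficient. -/
theorem num_add_period (e z : ℂ) {l : ℂ} (hl : l ∈ (divPair L n hn).lattice) :
    num L n e (z + l) = num L n e z := by
  have hstep : ∀ (b : ℤ) (z : ℂ), num L n e (z + b * (L.ω₂ / n)) = num L n e z := by
    intro b
    induction b using Int.induction_on with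
    | zero =>
      intro z
      simp
    | succ i ih =>
      intro z
      rw [show z + ((i + 1 : ℤ) : ℂ) * (L.ω₂ / n) = (z + ((i : ℤ) : ℂ) * (L.ω₂ / n)) + L.ω₂ / n by
        push_cast
        ring, num_add_step L n hn]
      exact ih z
    | pred i ih =>
      intro z
      rw [← num_add_step L n hn e (z + ((-(i : ℤ) - 1 : ℤ) : ℂ) * (L.ω₂ / n)),
        show z + ((-(i : ℤ) - 1 : ℤ) : ℂ) * (L.ω₂ / n) + L.ω₂ / n =
          z + ((-(i : ℤ) : ℤ) : ℂ) * (L.ω₂ / n) by
        push_cast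
        ring]
      exact ih z
  obtain ⟨a, b, rfl⟩ := PeriodPair.mem_lattice.1 hl
  rw [divPair_ω₁, divPair_ω₂]
  have ha : (a : ℂ) * L.ω₁ ∈ L.lattice := PeriodPair.mem_lattice.2 ⟨a, 0, by simp⟩
  rw [show z + ((a : ℂ) * L.ω₁ + (b : ℂ) * (L.ω₂ / n)) =
    (z + (b : ℂ) * (L.ω₂ / n)) + (a : ℂ) * L.ω₁ by ring, num_add_lattice L n e _ ha, hstep]

theorem quo_add_period (j : Fin 3) (z : ℂ) {l : ℂ} (hl : l ∈ (divPair L n hn).lattice) :
    quo L n hn j (z + l) = quo L n hn j z := by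
  unfold quo
  rw [num_add_period L n hn _ z hl]
  congr 1
  unfold den
  rw [show z + l = z + ((⟨l, hl⟩ : (divPair L n hn).lattice) : ℂ) from rfl,
    (divPair L n hn).weierstrassP_add_coe]

end Fermat.Agent.S15.Mod.D
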