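import Fermat.Agent.S15.Mod.D.CLim
import Fermat.Agent.S15.Mod.D.QOrd
import Fermat.Agent.S15.Mod.D.QPer
import Fermat.Agent.S15.Mod.U.Liouville

/-!
# S15-MOD-D : the quotient is the constant `∏_{0<k<n} (℘_L (c_k) - e_j)`
-/

set_option autoImplicit false

open scoped Topology PeriodPair

namespace Fermat.Agent.S15.Mod.D

open Fermat.Agent.S15.Mod.U

variable (L : PeriodPair) (n : ℕ) (hn : n ≠ 0)

/-- `U.const_of_order_nonneg` for the period pair `L'` (`meromorphicAt_quo`, `quo_add_period`,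
`order_quo_nonneg`) gives `c`; eventually on `𝓝[≠] 0` `quo = c` (`eventually_not_mem_and_ne`,
`continuousAt_quo`); `tendsto_quo` and uniqueness of limits give `c = Kc`. -/
theorem quo_eq (hodd : Odd n) (hΔ' : disc (divPair L n hn) ≠ 0) (j : Fin 3) {z : ℂ}
    (hz : z ∉ (divPair L n hn).lattice)
    (hne : ℘[divPair L n hn] z ≠ ev (divPair L n hn) (hp L) j) :
    quo L n hn j z = Kc L n (ev L (hp L) j) := by
  obtain ⟨c, hc⟩ := const_of_order_nonneg (divPair L n hn) (quo L n hn j)
    (meromorphicAt_quo L n hn j) (fun z l hl => quo_add_period L n hn j z hl)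
    (order_quo_nonneg L n hn hodd hΔ' j)
  have h1 : quo L n hn j =ᶠ[𝓝[≠] 0] fun _ => c := by
    filter_upwards [eventually_not_mem_and_ne (divPair L n hn)
      (ev (divPair L n hn) (hp L) j)] with w hw
    exact hc w (continuousAt_quo L n hn j hw.1 hw.2)
  have h2 : Filter.Tendsto (quo L n hn j) (𝓝[≠] 0) (𝓝 c) :=
    tendsto_const_nhds.congr' h1.symm
  have h3 := tendsto_nhds_unique h2 (tendsto_quo L n hn j)
  rw [hc z (continuousAt_quo L n hn j hz hne), h3]

/-- `quo_eq` at `z = h_i`, `i ≠ j` (`halfSys_div`, `ev_injective` for `L'`) -/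
theorem num_hp (hodd : Odd n) (hΔ' : disc (divPair L n hn) ≠ 0) {i j : Fin 3} (hij : i ≠ j) :
    num L n (ev L (hp L) j) (hp L i) =
      Kc L n (ev L (hp L) j) *
        (ev (divPair L n hn) (hp L) i - ev (divPair L n hn) (hp L) j) := by
  have H' := halfSys_div L n hn hodd
  have hne : ev (divPair L n hn) (hp L) i ≠ ev (divPair L n hn) (hp L) j :=
    fun h => hij (ev_injective H' hΔ' h)
  have h1 := quo_eq L n hn hodd hΔ' j (H'.not_mem i) hne
  have h2 : den L n hn j (hp L i) =
      ev (divPair L n hn) (hp L) i - ev (divPair L n hn) (hp L) j := rfl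
  have h3 : den L n hn j (hp L i) ≠ 0 := by rw [h2]; exact sub_ne_zero.2 hne
  unfold quo at h1
  rw [div_eq_iff h3, h2] at h1
  exact h1

end Fermat.Agent.S15.Mod.D
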