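import Fermat.Agent.S15.Mod.D.Defs

/-!
# S15-MOD-D : combinatorics of `L ⊆ L' = divPair L n`

Everything follows from `PeriodPair.mem_lattice` and
`PeriodPair.mul_ω₁_add_mul_ω₂_mem_lattice : (α : ℂ) * ω₁ + β * ω₂ ∈ L.lattice ↔ α.den = 1 ∧ β.den = 1`
(`α β : ℚ`).  Mathlib only.
-/

set_option autoImplicit false

open scoped Topology PeriodPair

namespace Fermat.Agent.S15.Mod.D

variable (L : PeriodPair) (n : ℕ) (hn : n ≠ 0)

include hn in
theorem LatB_dvd_of_mem (a : ℤ) (h : (a : ℂ) * (L.ω₂ / n) ∈ L.lattice) : (n : ℤ) ∣ a := by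
  have hn' : (n : ℚ) ≠ 0 := by exact_mod_cast hn
  have e : (a : ℂ) * (L.ω₂ / n) = ((0 : ℚ) : ℂ) * L.ω₁ + (((a : ℚ) / n : ℚ) : ℂ) * L.ω₂ := by
    push_cast
    ring
  rw [e, PeriodPair.mul_ω₁_add_mul_ω₂_mem_lattice] at h
  have h2 := (Rat.den_eq_one_iff _).1 h.2
  refine ⟨((a : ℚ) / n).num, ?_⟩
  have h3 : (a : ℚ) = (n : ℚ) * (((a : ℚ) / n).num : ℚ) := by
    rw [h2]
    field_simp
  exact_mod_cast h3

include hn in
theorem cpt_sub_not_mem {k k' : ℕ} (hk : k < n) (hk' : k' < n) (hne : k ≠ k') :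
    cpt L n k - cpt L n k' ∉ L.lattice := by
  intro h
  have e : cpt L n k - cpt L n k' = (((k : ℤ) - (k' : ℤ) : ℤ) : ℂ) * (L.ω₂ / n) := by
    unfold cpt
    push_cast
    ring
  rw [e] at h
  have h1 := LatB_dvd_of_mem L n hn _ h
  have h2 : (k : ℤ) - (k' : ℤ) = 0 := by
    apply Int.eq_zero_of_abs_lt_dvd h1
    rw [abs_lt]
    constructor <;> omega
  apply hne
  omega

include hn in
theorem unique_shift {z : ℂ} {k k' : ℕ} (hk : k < n) (hk' : k' < n)
    (h : z + cpt L n k ∈ L.lattice) (h' : z + cpt L n k' ∈ L.lattice) : k = k' := by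
  by_contra hne
  apply cpt_sub_not_mem L n hn hk hk' hne
  have := sub_mem h h'
  rwa [add_sub_add_left_eq_sub] at this

theorem cpt_not_mem {k : ℕ} (hk : 0 < k) (hkn : k < n) : cpt L n k ∉ L.lattice := by
  intro h
  have e : cpt L n k = (((k : ℤ) : ℤ) : ℂ) * (L.ω₂ / n) := by
    unfold cpt
    push_cast
    ring
  rw [e] at h
  have h1 := LatB_dvd_of_mem L n (by omega) _ h
  rw [Int.natCast_dvd_natCast] at h1
  exact Nat.not_dvd_of_pos_of_lt hk hkn h1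

theorem two_cpt_not_mem (hodd : Odd n) {k : ℕ} (hk : 0 < k) (hkn : k < n) :
    2 * cpt L n k ∉ L.lattice := by
  intro h
  have e : 2 * cpt L n k = (((2 * k : ℕ) : ℤ) : ℂ) * (L.ω₂ / n) := by
    unfold cpt
    push_cast
    ring
  rw [e] at h
  have h1 := LatB_dvd_of_mem L n (by omega) _ h
  rw [Int.natCast_dvd_natCast] at h1
  have h2 : n ∣ k := (Nat.Coprime.dvd_of_dvd_mul_left (Nat.coprime_two_right.2 hodd) h1)
  exact Nat.not_dvd_of_pos_of_lt hk hkn h2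

end Fermat.Agent.S15.Mod.D
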