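import Fermat.Agent.S15.Mod.D.Defs

/-!
# S15-MOD-D : orders of `z ↦ ℘ (z + c) - e`

Mathlib: `PeriodPair.meromorphic_weierstrassP`, `PeriodPair.order_weierstrassP`,
`PeriodPair.analyticOnNhd_weierstrassP`, `meromorphicOrderAt_comp_add_const_eq_meromorphicOrderAt`,
`meromorphicOrderAt_add_eq_left_of_lt`, `AnalyticAt.meromorphicOrderAt_eq`,
`AnalyticAt.analyticOrderAt_...`, `natCast_le_analyticOrderAt`, `meromorphicOrderAt_deriv_eq_sub_one`.
-/

set_option autoImplicit false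

open scoped Topology PeriodPair

namespace Fermat.Agent.S15.Mod.D


variable (M : PeriodPair)

/-- `z² (℘ z - e) → 1` as `z → 0`: `℘ z = 1/z² + ℘[M - 0] z` for `z ≠ 0`
(`weierstrassPExcept_add` with `l₀ = 0`), `℘[M - 0]` is analytic, hence continuous, at `0`
(`analyticAt_weierstrassPExcept`). -/
theorem tendsto_sq_mul_wp (e : ℂ) :
    Filter.Tendsto (fun z => z ^ 2 * (℘[M] z - e)) (𝓝[≠] 0) (𝓝 1) := by
  have hc : ContinuousAt (fun z : ℂ => z ^ 2 * (M.weierstrassPExcept 0 z - e) + 1) 0 := by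
    have := (M.analyticAt_weierstrassPExcept 0).continuousAt
    fun_prop
  have h1 : Filter.Tendsto (fun z : ℂ => z ^ 2 * (M.weierstrassPExcept 0 z - e) + 1) (𝓝[≠] 0) (𝓝 1) := by
    have := hc.tendsto.mono_left (nhdsWithin_le_nhds (s := {(0 : ℂ)}ᶜ))
    simpa using this
  refine h1.congr' ?_
  filter_upwards [self_mem_nhdsWithin] with z hz
  have hz' : z ≠ 0 := hz
  have h2 := M.weierstrassPExcept_add (0 : M.lattice) z
  simp only [ZeroMemClass.coe_zero, sub_zero, ne_eq, OfNat.ofNat_ne_zero, not_false_eq_true,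
    zero_pow, div_zero] at h2
  rw [← h2]
  field_simp
  ring

/-- near `0` (punctured) `z ∉ M` and `℘ z ≠ e` (`tendsto_sq_mul_wp`, or
`tendsto_cobounded_of_meromorphicOrderAt_neg`; `M.lattice` is discrete:
`compl_lattice_sdiff_singleton_mem_nhds`). -/
theorem eventually_not_mem_and_ne (e : ℂ) :
    ∀ᶠ z in 𝓝[≠] (0 : ℂ), z ∉ M.lattice ∧ ℘[M] z ≠ e := by
  have h1 := (tendsto_sq_mul_wp M e).eventually_ne (one_ne_zero)
  have h2 : ∀ᶠ z in 𝓝[≠] (0 : ℂ), z ∈ ((M.lattice : Set ℂ) \ {0})ᶜ :=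
    mem_nhdsWithin_of_mem_nhds (M.compl_lattice_sdiff_singleton_mem_nhds 0)
  filter_upwards [h1, h2, self_mem_nhdsWithin] with z hz1 hz2 hz3
  refine ⟨fun hmem => hz2 ⟨hmem, hz3⟩, fun he => hz1 ?_⟩
  rw [he, sub_self, mul_zero]

end Fermat.Agent.S15.Mod.D
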