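import Fermat.Agent.S15.Mod.D.QMer
import Fermat.Agent.S15.Mod.D.LatB
import Fermat.Agent.S15.Mod.D.OrdC

/-!
# S15-MOD-D : the quotient is the constant `∏_{0<k<n} (℘_L (c_k) - e_j)`
-/

set_option autoImplicit false

open scoped Topology PeriodPair

namespace Fermat.Agent.S15.Mod.D


variable (L : PeriodPair) (n : ℕ) (hn : n ≠ 0)

/-- the constant -/
noncomputable def Kc (e : ℂ) : ℂ := ∏ k ∈ Finset.Ico 1 n, (℘[L] (cpt L n k) - e)

include hn in
/-- split off the factor `k = 0` (`Finset.prod_range_eq_mul_Ico` / `Finset.range_eq_Ico`,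
`Finset.prod_eq_prod_Ico_succ_bot`): `z² (℘ z - e) → 1` (`tendsto_sq_mul_wp`), the other factors are
continuous at `0` (`analyticAt_wp_shift`, `cpt_not_mem`). -/
theorem tendsto_sq_mul_num (e : ℂ) :
    Filter.Tendsto (fun z => z ^ 2 * num L n e z) (𝓝[≠] 0) (𝓝 (Kc L n e)) := by
  have hpos : 0 < n := Nat.pos_of_ne_zero hn
  have h1 : (fun z => z ^ 2 * num L n e z) = fun z =>
      (z ^ 2 * (℘[L] z - e)) * ∏ k ∈ Finset.Ico 1 n, (℘[L] (z + cpt L n k) - e) := by
    funext z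
    rw [num, Finset.range_eq_Ico, Finset.prod_eq_prod_Ico_succ_bot hpos, cpt, Nat.cast_zero,
      zero_mul, add_zero, mul_assoc]
  rw [h1, ← one_mul (Kc L n e)]
  refine (tendsto_sq_mul_wp L e).mul ?_
  rw [Kc]
  refine tendsto_finsetProd _ fun k hk => ?_
  obtain ⟨hk1, hk2⟩ := Finset.mem_Ico.1 hk
  have h2 : (0 : ℂ) + cpt L n k ∉ L.lattice := by
    rw [zero_add]
    exact cpt_not_mem L n hk1 hk2
  have h3 := ((analyticAt_wp_shift L e h2).continuousAt.tendsto).mono_left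
    (nhdsWithin_le_nhds (s := {(0 : ℂ)}ᶜ))
  simp only [zero_add] at h3
  exact h3

/-- quotient of `tendsto_sq_mul_num` and `tendsto_sq_mul_wp` for `L'` (`z ≠ 0` on `𝓝[≠] 0`) -/
theorem tendsto_quo (j : Fin 3) :
    Filter.Tendsto (quo L n hn j) (𝓝[≠] 0) (𝓝 (Kc L n (ev L (hp L) j))) := by
  have h1 := (tendsto_sq_mul_num L n hn (ev L (hp L) j)).div
    (tendsto_sq_mul_wp (divPair L n hn) (ev (divPair L n hn) (hp L) j)) one_ne_zero
  rw [div_one] at h1
  refine h1.congr' ?_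
  filter_upwards [self_mem_nhdsWithin] with z hz
  have hz0 : z ^ 2 ≠ 0 := pow_ne_zero 2 hz
  simp only [Pi.div_apply]
  rw [mul_div_mul_left _ _ hz0]
  rfl

end Fermat.Agent.S15.Mod.D
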