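import Mathlib

/-!
# S15-MOD-D : definitions

`L` a period pair, `n` an odd number, `divPair L n = (ω₁, ω₂ / n)` the lattice `L' = L + ℤ ω₂/n`.
Goal of the module (`Main.lean`):
`(∏_{0<k<n} ℘'[L] (k ω₂/n)) ^ 4 * disc L' = disc L ^ n`.
-/

set_option autoImplicit false

open scoped Topology PeriodPair

namespace Fermat.Agent.S15.Mod.D

/-- `g₂³ - 27 g₃²` -/
noncomputable def disc (L : PeriodPair) : ℂ := L.g₂ ^ 3 - 27 * L.g₃ ^ 2

/-- the period pair `(ω₁, ω₂ / n)` -/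
noncomputable def divPair (L : PeriodPair) (n : ℕ) (hn : n ≠ 0) : PeriodPair where
  ω₁ := L.ω₁
  ω₂ := L.ω₂ / n
  indep := by
    have h := L.indep
    rw [LinearIndependent.pair_iff] at h ⊢
    intro s t hst
    have hn' : (n : ℝ) ≠ 0 := by exact_mod_cast hn
    have := h s (t / n) (by
      rw [← hst]
      simp only [Complex.real_smul]
      push_cast
      ring)
    refine ⟨this.1, ?_⟩
    have h2 := this.2
    rcases div_eq_zero_iff.mp h2 with h3 | h3
    · exact h3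
    · exact absurd h3 hn'

@[simp] lemma divPair_ω₁ (L : PeriodPair) (n : ℕ) (hn : n ≠ 0) : (divPair L n hn).ω₁ = L.ω₁ := rfl
@[simp] lemma divPair_ω₂ (L : PeriodPair) (n : ℕ) (hn : n ≠ 0) :
    (divPair L n hn).ω₂ = L.ω₂ / n := rfl

/-- the division points `c_k = k ω₂ / n` -/
noncomputable def cpt (L : PeriodPair) (n : ℕ) (k : ℕ) : ℂ := (k : ℂ) * (L.ω₂ / n)

/-- the three half periods of `L` -/
noncomputable def hp (L : PeriodPair) : Fin 3 → ℂ := ![L.ω₁ / 2, L.ω₂ / 2, (L.ω₁ + L.ω₂) / 2]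

/-- `h 0, h 1, h 2` represent the three nonzero classes of `(1/2) M / M`. -/
structure HalfSys (M : PeriodPair) (h : Fin 3 → ℂ) : Prop where
  two_mem : ∀ i, 2 * h i ∈ M.lattice
  not_mem : ∀ i, h i ∉ M.lattice
  sub_not_mem : ∀ i j, i ≠ j → h i - h j ∉ M.lattice
  cover : ∀ w, 2 * w ∈ M.lattice → w ∉ M.lattice → ∃ i, w - h i ∈ M.lattice

/-- the values `e_i = ℘ (h_i)` -/
noncomputable def ev (M : PeriodPair) (h : Fin 3 → ℂ) (i : Fin 3) : ℂ := ℘[M] (h i)

end Fermat.Agent.S15.Mod.D
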