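import Fermat.Agent.S15.Mod.D.PPForm
import Fermat.Agent.S15.Mod.U.Main

/-!
# S15-MOD-D : export.  `(W, Q)` over `ℂ`, `Q` of odd prime order `p`: there is `τ` with
`j(τ) = j(W)` and `Δ(τ)/Δ(pτ) = p¹² ∏_{0<k<p} Ψ₂Sq(x(kQ))² / Δ_W^(p-1)`.
-/

set_option autoImplicit false

open UpperHalfPlane ModularForm EisensteinSeries
open scoped Topology PeriodPair Real

namespace Fermat.Agent.S15.Mod.D

open WeierstrassCurve WeierstrassCurve.Affine Fermat.Agent.S05 Fermat.Agent.S15.Mod.U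
  Fermat.Agent.Lib.JInjective

/-- pure algebra: `4 (x + b₂/12)³ - (c₄/12)(x + b₂/12) - c₆/216 = 4x³ + b₂x² + 2b₄x + b₆`
(unfold `c₄ c₆ Ψ₂Sq`, `simp`, `ring`). -/
theorem psi2sq_eq (W : WeierstrassCurve ℂ) (x : ℂ) :
    4 * (x + W.b₂ / 12) ^ 3 - W.c₄ / 12 * (x + W.b₂ / 12) - W.c₆ / 216 = W.Ψ₂Sq.eval x := by
  rw [WeierstrassCurve.Ψ₂Sq, WeierstrassCurve.c₄, WeierstrassCurve.c₆]
  simp only [Polynomial.eval_add, Polynomial.eval_mul, Polynomial.eval_pow, Polynomial.eval_C,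
    Polynomial.eval_X]
  ring

/-- `1728 Δ = c₄³ - c₆²` (`c_relation`) -/
theorem disc_eq_Δ (W : WeierstrassCurve ℂ) (L : PeriodPair) (h4 : W.c₄ = 12 * L.g₂)
    (h6 : W.c₆ = 216 * L.g₃) : disc L = W.Δ := by
  have h := W.c_relation
  rw [h4, h6] at h
  rw [disc]
  linear_combination (-1 / 1728 : ℂ) * h

/-- **Export of MOD-U + MOD-D.**  `U.exists_unif`, `disc_id_pp`, `derivWeierstrassP_sq`, `psi2sq_eq`,
`disc_eq_Δ`, `U.g₂_pp`, `U.disc_pp`. -/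
theorem exists_tau [DecidableEq ℂ] (W : WeierstrassCurve.Affine ℂ) (hΔ : W.Δ ≠ 0) (hc4 : W.c₄ ≠ 0)
    (hc6 : W.c₆ ≠ 0) {p : ℕ} (hp : p.Prime) (hp2 : p ≠ 2) (Q : W.Point)
    (hQ : addOrderOf Q = p) :
    ∃ τ : ℍ, E₄ τ ^ 3 * W.Δ = W.c₄ ^ 3 * discriminant τ ∧
      ∀ τ' : ℍ, (τ' : ℂ) = p * τ →
        discriminant τ * W.Δ ^ (p - 1) =
          (p : ℂ) ^ 12 * (∏ k ∈ Finset.Ico 1 p, (W.Ψ₂Sq.eval (xc (k • Q))) ^ 2) *
            discriminant τ' := by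
  obtain ⟨τ, d, hd, h4, h6, hx⟩ := exists_unif W hΔ hc4 hc6 hp hp2 Q hQ
  have hdisc : disc (pp d hd τ) = W.Δ := disc_eq_Δ W _ h4 h6
  refine ⟨τ, ?_, fun τ' hτ' => ?_⟩
  · have h1 : disc (pp d hd τ) = _ := disc_pp d hd τ
    rw [← hdisc, h1, h4, g₂_pp]
    simp only [← inv_pow]
    ring
  · have h1 := disc_id_pp d hd τ τ' p (hp.odd_of_ne_two hp2) hτ'
    rw [hdisc] at h1
    rw [h1, ← Finset.prod_pow]
    congr 2
    refine Finset.prod_congr rfl fun k hk => ?_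
    obtain ⟨hk1, hk2⟩ := Finset.mem_Ico.1 hk
    have hk0 : 0 < k := hk1
    have hnm : (k : ℂ) * (d / p) ∉ (pp d hd τ).lattice := by
      rw [← cpt_pp d hd τ p k]
      exact cpt_not_mem _ p hk0 hk2
    have h2 := (pp d hd τ).derivWeierstrassP_sq _ hnm
    rw [← hx k hk0 hk2] at h2
    have h3 := psi2sq_eq W (xc (k • Q))
    rw [h4, h6] at h3
    have h5 : ℘'[pp d hd τ] ((k : ℂ) * (d / p)) ^ 2 = W.Ψ₂Sq.eval (xc (k • Q)) := by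
      rw [h2, ← h3]
      ring
    rw [← h5]
    ring

end Fermat.Agent.S15.Mod.D
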