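import Fermat.Agent.S15.Mod.D.RootsC
import Fermat.Agent.S15.Mod.U.Add

/-!
# S15-MOD-D : translation by a half period
-/

set_option autoImplicit false

open scoped Topology PeriodPair

namespace Fermat.Agent.S15.Mod.D

open Fermat.Agent.S15.Mod.U

variable {M : PeriodPair} {h : Fin 3 → ℂ}

/-- otherwise `c - h i ∈ M` (`sub_mem_of_wp_eq_ev`) and `2 c = 2 (c - h i) + 2 h i ∈ M` -/
theorem wp_ne_ev (H : HalfSys M h) (hΔ : disc M ≠ 0) {c : ℂ} (hc : c ∉ M.lattice)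
    (h2c : 2 * c ∉ M.lattice) (i : Fin 3) : ℘[M] c ≠ ev M h i := by
  intro h0
  have h1 := sub_mem_of_wp_eq_ev H hΔ hc h0
  apply h2c
  have h2 := M.lattice.add_mem (M.lattice.add_mem h1 h1) (H.two_mem i)
  have h3 : c - h i + (c - h i) + 2 * h i = 2 * c := by ring
  rwa [h3] at h2

/-- `h i + c ∉ M` (else `2 c ∈ M`) -/
theorem hp_add_not_mem (H : HalfSys M h) {c : ℂ} (h2c : 2 * c ∉ M.lattice) (i : Fin 3) :
    h i + c ∉ M.lattice := by
  intro h1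
  apply h2c
  have h2 := M.lattice.sub_mem (M.lattice.add_mem h1 h1) (H.two_mem i)
  have h3 : h i + c + (h i + c) - 2 * h i = 2 * c := by ring
  rwa [h3] at h2

theorem Half_perm (f : Fin 3 → ℂ) {i j k : Fin 3} (hij : i ≠ j) (hik : i ≠ k) (hjk : j ≠ k) :
    f 0 + f 1 + f 2 = f i + f j + f k ∧ f 0 * f 1 * f 2 = f i * f j * f k := by
  have key : ∀ i j k : Fin 3, i ≠ j → i ≠ k → j ≠ k →
      (i = 0 ∧ j = 1 ∧ k = 2) ∨ (i = 0 ∧ j = 2 ∧ k = 1) ∨ (i = 1 ∧ j = 0 ∧ k = 2) ∨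
      (i = 1 ∧ j = 2 ∧ k = 0) ∨ (i = 2 ∧ j = 0 ∧ k = 1) ∨ (i = 2 ∧ j = 1 ∧ k = 0) := by decide
  rcases key i j k hij hik hjk with ⟨rfl, rfl, rfl⟩ | ⟨rfl, rfl, rfl⟩ | ⟨rfl, rfl, rfl⟩ |
    ⟨rfl, rfl, rfl⟩ | ⟨rfl, rfl, rfl⟩ | ⟨rfl, rfl, rfl⟩ <;> constructor <;> ring

/-- `U.add_formula M (z := h i) (w := c)`:
`4 (℘ (h_i + c) + e_i + x) (e_i - x)² = ℘' c ² = 4 (x - e_i)(x - e_j)(x - e_k)` (`deriv_hp_eq_zero`,
`deriv_sq_eq`), cancel `4 (x - e_i)` (`wp_ne_ev`), use `e_i + e_j + e_k = 0` (`ev_rel`).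
(`i j k` pairwise distinct elements of `Fin 3`: `fin_cases` or `decide`-style case split.) -/
theorem half_shift (H : HalfSys M h) (hΔ : disc M ≠ 0) {c : ℂ} (hc : c ∉ M.lattice)
    (h2c : 2 * c ∉ M.lattice) {i j k : Fin 3} (hij : i ≠ j) (hik : i ≠ k) (hjk : j ≠ k) :
    (℘[M] (h i + c) - ev M h j) * (℘[M] c - ev M h i) =
      (ev M h i - ev M h j) * (℘[M] c - ev M h k) := by
  have h1 := add_formula M (H.not_mem i) hc (hp_add_not_mem H h2c i) h2c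
  rw [deriv_hp_eq_zero H i, zero_sub, neg_sq, deriv_sq_eq H hΔ hc] at h1
  have hsum := (Half_perm (ev M h) hij hik hjk).1
  rw [(ev_rel H hΔ).1] at hsum
  have hprod := (Half_perm (fun l => ℘[M] c - ev M h l) hij hik hjk).2
  have hne : ℘[M] c - ev M h i ≠ 0 := sub_ne_zero.2 (wp_ne_ev H hΔ hc h2c i)
  change 4 * (℘[M] (h i + c) + ev M h i + ℘[M] c) * (ev M h i - ℘[M] c) ^ 2 = _ at h1
  generalize ℘[M] (h i + c) = y at h1 ⊢
  generalize ℘[M] c = x at h1 hprod hne ⊢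
  generalize ev M h i = ei at h1 hprod hne hsum ⊢
  generalize ev M h j = ej at h1 hprod hsum ⊢
  generalize ev M h k = ek at h1 hprod hsum ⊢
  have h2 : 4 * (x - ev M h 0) * (x - ev M h 1) * (x - ev M h 2) =
      4 * ((x - ei) * (x - ej) * (x - ek)) := by
    rw [← hprod]
    ring
  rw [h2] at h1
  have h3 : (y + ei + x) * (x - ei) = (x - ej) * (x - ek) := by
    have h4 : (4 : ℂ) * (x - ei) ≠ 0 := mul_ne_zero (by norm_num) hne
    apply mul_left_cancel₀ h4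
    linear_combination h1
  have hek : ek = -ei - ej := by linear_combination -hsum
  subst hek
  linear_combination h3

end Fermat.Agent.S15.Mod.D
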