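import Fermat.Agent.S15.Mod.D.CLim
import Fermat.Agent.S15.Mod.D.Half
import Fermat.Agent.S15.Mod.D.LatC

/-!
# S15-MOD-D : `(∏_{0<k<n} ℘'_L (c_k)) ^ 4 * disc L' = disc L ^ n`
-/

set_option autoImplicit false

open scoped Topology PeriodPair

namespace Fermat.Agent.S15.Mod.D

open Fermat.Agent.S15.Mod.U

variable (L : PeriodPair) (n : ℕ) (hn : n ≠ 0)

theorem Kc_ne_zero (hodd : Odd n) (hΔ : disc L ≠ 0) (i : Fin 3) : Kc L n (ev L (hp L) i) ≠ 0 := by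
  rw [Kc, Finset.prod_ne_zero_iff]
  intro k hk h0
  obtain ⟨hk1, hk2⟩ := Finset.mem_Ico.1 hk
  have hk0 : 0 < k := hk1
  have H := halfSys_self L
  have h1 := sub_mem_of_wp_eq_ev H hΔ (cpt_not_mem L n hk0 hk2) (sub_eq_zero.1 h0)
  apply two_cpt_not_mem L n hodd hk0 hk2
  have h2 := L.lattice.add_mem (L.lattice.add_mem h1 h1) (H.two_mem i)
  have h3 : cpt L n k - hp L i + (cpt L n k - hp L i) + 2 * hp L i = 2 * cpt L n k := by ring
  rwa [h3] at h2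

/-- `deriv_sq_eq` factor by factor -/
theorem prod_deriv_sq (hΔ : disc L ≠ 0) :
    (∏ k ∈ Finset.Ico 1 n, ℘'[L] (cpt L n k)) ^ 2 =
      4 ^ (n - 1) * (Kc L n (ev L (hp L) 0) * Kc L n (ev L (hp L) 1) * Kc L n (ev L (hp L) 2)) := by
  have H := halfSys_self L
  rw [← Finset.prod_pow, Kc, Kc, Kc, ← Finset.prod_mul_distrib, ← Finset.prod_mul_distrib]
  have h4 : (4 : ℂ) ^ (n - 1) = ∏ _k ∈ Finset.Ico 1 n, (4 : ℂ) := by
    rw [Finset.prod_const, Nat.card_Ico]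
  rw [h4, ← Finset.prod_mul_distrib]
  refine Finset.prod_congr rfl fun k hk => ?_
  obtain ⟨hk1, hk2⟩ := Finset.mem_Ico.1 hk
  rw [deriv_sq_eq H hΔ (cpt_not_mem L n hk1 hk2)]
  ring

end Fermat.Agent.S15.Mod.D
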