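import Fermat.Agent.S15.Mod.D.MainA
import Fermat.Agent.S15.Mod.D.MainB

/-!
# S15-MOD-D : `(∏_{0<k<n} ℘'_L (c_k)) ^ 4 * disc L' = disc L ^ n`
-/

set_option autoImplicit false

open scoped Topology PeriodPair

namespace Fermat.Agent.S15.Mod.D

open Fermat.Agent.S15.Mod.U

variable (L : PeriodPair) (n : ℕ) (hn : n ≠ 0)

/-- the pure algebra behind `disc_id`. -/
theorem Main_alg (m : ℕ) {P K0 K1 K2 a b c a' b' c' dL dL' : ℂ} (h0 : K0 ≠ 0) (h1 : K1 ≠ 0)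
    (h2 : K2 ≠ 0) (ha : a' * (K0 * K1) = a ^ (m + 1) * K2) (hb : b' * (K0 * K2) = b ^ (m + 1) * K1)
    (hc : c' * (K1 * K2) = c ^ (m + 1) * K0) (hP : P ^ 2 = 4 ^ m * (K0 * K1 * K2))
    (hd : dL = 16 * (a * b * c) ^ 2) (hd' : dL' = 16 * (a' * b' * c') ^ 2) :
    P ^ 4 * dL' = dL ^ (m + 1) := by
  have hK : K0 * K1 * K2 ≠ 0 := mul_ne_zero (mul_ne_zero h0 h1) h2
  have hDK : a' * b' * c' * (K0 * K1 * K2) = (a * b * c) ^ (m + 1) := by
    apply mul_right_cancel₀ hK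
    calc a' * b' * c' * (K0 * K1 * K2) * (K0 * K1 * K2)
        = (a' * (K0 * K1)) * (b' * (K0 * K2)) * (c' * (K1 * K2)) := by ring
      _ = (a * b * c) ^ (m + 1) * (K0 * K1 * K2) := by
          rw [ha, hb, hc, mul_pow, mul_pow]
          ring
  have h4 : ((4 : ℂ) ^ m) ^ 2 = 16 ^ m := by
    rw [← pow_mul, mul_comm, pow_mul]
    norm_num
  calc P ^ 4 * dL' = (P ^ 2) ^ 2 * dL' := by ring
    _ = 16 ^ m * 16 * (a' * b' * c' * (K0 * K1 * K2)) ^ 2 := by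
        rw [hP, hd', mul_pow, h4]
        ring
    _ = dL ^ (m + 1) := by
        rw [hDK, hd, mul_pow 16, ← pow_succ, ← pow_mul, ← pow_mul, mul_comm 2]

/-- **The discriminant identity.**  `disc_eq` for `L` and `L'`, `ev_div_sub` for
`(i,j,k) = (0,1,2), (0,2,1), (1,2,0)`, `prod_deriv_sq`, `Kc_ne_zero`:
with `K = K₀K₁K₂`, `D = ∏_{i<j}(e_i-e_j)`, `D' = ∏ (e'_i - e'_j)`: `D' K² = D^n K`, so `D' K = D^n`;
`(∏℘')⁴ disc L' = 16^(n-1) K² · 16 D'² = 16^n D^(2n) = disc L ^ n`. -/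
theorem disc_id (hodd : Odd n) (hΔ : disc L ≠ 0) (hΔ' : disc (divPair L n hn) ≠ 0) :
    (∏ k ∈ Finset.Ico 1 n, ℘'[L] (cpt L n k)) ^ 4 * disc (divPair L n hn) = disc L ^ n := by
  have hP := prod_deriv_sq L n hΔ
  have ha := ev_div_sub L n hn hodd hΔ hΔ' (i := 0) (j := 1) (k := 2) (by decide) (by decide)
    (by decide)
  have hb := ev_div_sub L n hn hodd hΔ hΔ' (i := 0) (j := 2) (k := 1) (by decide) (by decide)
    (by decide)
  have hc := ev_div_sub L n hn hodd hΔ hΔ' (i := 1) (j := 2) (k := 0) (by decide) (by decide)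
    (by decide)
  have hd := disc_eq (halfSys_self L) hΔ
  have hd' := disc_eq (halfSys_div L n hn hodd) hΔ'
  obtain ⟨m, rfl⟩ : ∃ m, n = m + 1 := ⟨n - 1, by omega⟩
  rw [Nat.add_sub_cancel] at hP
  exact Main_alg m (Kc_ne_zero L _ hodd hΔ 0) (Kc_ne_zero L _ hodd hΔ 1) (Kc_ne_zero L _ hodd hΔ 2)
    ha hb hc hP hd hd'

end Fermat.Agent.S15.Mod.D
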