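import Fermat.Agent.S15.Mod.D.CEq
import Fermat.Agent.S15.Mod.D.Half

/-!
# S15-MOD-D : `(∏_{0<k<n} ℘'_L (c_k)) ^ 4 * disc L' = disc L ^ n`
-/

set_option autoImplicit false

open scoped Topology PeriodPair

namespace Fermat.Agent.S15.Mod.D

open Fermat.Agent.S15.Mod.U

variable (L : PeriodPair) (n : ℕ) (hn : n ≠ 0)

include hn in
/-- `num L n e_j (h_i) = (e_i - e_j) ∏_{0<m<n} (℘ (h_i + c_m) - e_j)`; multiply by
`∏ (x_m - e_i)` and use `half_shift` factor by factor (`Finset.prod_mul_distrib`,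
`Finset.prod_congr`, `Finset.prod_const`, `Nat.card_Ico`). -/
theorem num_hp_mul (hodd : Odd n) (hΔ : disc L ≠ 0) {i j k : Fin 3} (hij : i ≠ j) (hik : i ≠ k)
    (hjk : j ≠ k) :
    num L n (ev L (hp L) j) (hp L i) * Kc L n (ev L (hp L) i) =
      (ev L (hp L) i - ev L (hp L) j) ^ n * Kc L n (ev L (hp L) k) := by
  have H := halfSys_self L
  have hpos : 0 < n := Nat.pos_of_ne_zero hn
  have h0 : ℘[L] (hp L i + cpt L n 0) - ev L (hp L) j = ev L (hp L) i - ev L (hp L) j := by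
    rw [cpt, Nat.cast_zero, zero_mul, add_zero]
    rfl
  rw [num, Finset.range_eq_Ico, Finset.prod_eq_prod_Ico_succ_bot hpos, h0, Kc, Kc, mul_assoc,
    ← Finset.prod_mul_distrib]
  have h1 : ∏ m ∈ Finset.Ico (0 + 1) n,
      ((℘[L] (hp L i + cpt L n m) - ev L (hp L) j) * (℘[L] (cpt L n m) - ev L (hp L) i)) =
      ∏ m ∈ Finset.Ico 1 n,
        ((ev L (hp L) i - ev L (hp L) j) * (℘[L] (cpt L n m) - ev L (hp L) k)) := by
    refine Finset.prod_congr rfl fun m hm => ?_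
    obtain ⟨hm1, hm2⟩ := Finset.mem_Ico.1 hm
    exact half_shift H hΔ (cpt_not_mem L n hm1 hm2) (two_cpt_not_mem L n hodd hm1 hm2) hij hik hjk
  rw [h1, Finset.prod_mul_distrib, Finset.prod_const, Nat.card_Ico, ← mul_assoc, ← pow_succ']
  congr 2
  omega

/-- `num_hp` and `num_hp_mul` -/
theorem ev_div_sub (hodd : Odd n) (hΔ : disc L ≠ 0) (hΔ' : disc (divPair L n hn) ≠ 0)
    {i j k : Fin 3} (hij : i ≠ j) (hik : i ≠ k) (hjk : j ≠ k) :
    (ev (divPair L n hn) (hp L) i - ev (divPair L n hn) (hp L) j) *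
        (Kc L n (ev L (hp L) i) * Kc L n (ev L (hp L) j)) =
      (ev L (hp L) i - ev L (hp L) j) ^ n * Kc L n (ev L (hp L) k) := by
  rw [← num_hp_mul L n hn hodd hΔ hij hik hjk, num_hp L n hn hodd hΔ' hij]
  ring

end Fermat.Agent.S15.Mod.D
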