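import Fermat.Agent.S15.Mod.D.Defs

/-!
# S15-MOD-D : orders of `z ↦ ℘ (z + c) - e`

Mathlib: `PeriodPair.meromorphic_weierstrassP`, `PeriodPair.order_weierstrassP`,
`PeriodPair.analyticOnNhd_weierstrassP`, `meromorphicOrderAt_comp_add_const_eq_meromorphicOrderAt`,
`meromorphicOrderAt_add_eq_left_of_lt`, `AnalyticAt.meromorphicOrderAt_eq`,
`AnalyticAt.analyticOrderAt_...`, `natCast_le_analyticOrderAt`, `meromorphicOrderAt_deriv_eq_sub_one`.
-/

set_option autoImplicit false

open scoped Topology PeriodPair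

namespace Fermat.Agent.S15.Mod.D


variable (M : PeriodPair)

theorem meromorphicAt_wp_shift (c e z : ℂ) : MeromorphicAt (fun w => ℘[M] (w + c) - e) z := by
  have h1 : MeromorphicAt (℘[M] ∘ (· + c)) z :=
    meromorphicAt_comp_add_const_iff_meromorphicAt.2 (M.meromorphic_weierstrassP (z + c))
  exact h1.sub (MeromorphicAt.const e z)

theorem analyticAt_wp_shift {c z : ℂ} (e : ℂ) (hz : z + c ∉ M.lattice) :
    AnalyticAt ℂ (fun w => ℘[M] (w + c) - e) z := by
  have h0 : AnalyticAt ℂ ℘[M] (z + c) := M.analyticOnNhd_weierstrassP (z + c) hz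
  have h1 : AnalyticAt ℂ (fun w => ℘[M] (w + c)) z :=
    AnalyticAt.fun_comp (g := ℘[M]) (f := fun w => w + c) h0 (by fun_prop)
  exact h1.sub analyticAt_const

/-- double pole: `order_weierstrassP`, translation, the constant does not change a negative order -/
theorem order_wp_shift_pole {c z : ℂ} (e : ℂ) (hz : z + c ∈ M.lattice) :
    meromorphicOrderAt (fun w => ℘[M] (w + c) - e) z = (-2 : ℤ) := by
  have h1 : MeromorphicAt (℘[M] ∘ (· + c)) z :=
    meromorphicAt_comp_add_const_iff_meromorphicAt.2 (M.meromorphic_weierstrassP (z + c))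
  have h2 : meromorphicOrderAt (℘[M] ∘ (· + c)) z = (-2 : ℤ) := by
    rw [meromorphicOrderAt_comp_add_const_eq_meromorphicOrderAt, M.order_weierstrassP _ hz]
    rfl
  have h3 : MeromorphicAt (fun _ : ℂ => -e) z := MeromorphicAt.const _ z
  have h4 : (0 : WithTop ℤ) ≤ meromorphicOrderAt (fun _ : ℂ => -e) z :=
    (analyticAt_const (v := -e) (x := z) (𝕜 := ℂ)).meromorphicOrderAt_nonneg
  have h5 : meromorphicOrderAt (℘[M] ∘ (· + c)) z < meromorphicOrderAt (fun _ : ℂ => -e) z := by
    rw [h2]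
    refine lt_of_lt_of_le ?_ h4
    exact_mod_cast (by norm_num : (-2 : ℤ) < 0)
  have h6 := meromorphicOrderAt_add_eq_left_of_lt (f₁ := ℘[M] ∘ (· + c)) h3 h5
  rw [h2] at h6
  rw [← h6]
  congr 1

end Fermat.Agent.S15.Mod.D
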