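import Fermat.Agent.S15.Mod.D.Main
import Fermat.Agent.S15.Mod.U.PP

/-!
# S15-MOD-D : the discriminant identity for the period pairs `pp d hd τ = (dτ, d)`
-/

set_option autoImplicit false

open UpperHalfPlane ModularForm
open scoped Topology PeriodPair Real

namespace Fermat.Agent.S15.Mod.D

open Fermat.Agent.S15.Mod.U Fermat.Agent.Lib.JInjective

/-- both are the pair `(dτ, d/n)` (structure eta + proof irrelevance: `unfold divPair pp; congr 1; ..`) -/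
theorem divPair_pp (d : ℂ) (hd : d ≠ 0) (τ τ' : ℍ) (n : ℕ) (hn : n ≠ 0) (hτ : (τ' : ℂ) = n * τ)
    (hd' : d / n ≠ 0) : divPair (pp d hd τ) n hn = pp (d / n) hd' τ' := by
  have hn' : (n : ℂ) ≠ 0 := by exact_mod_cast hn
  have h1 : d * (τ : ℂ) = d / n * (τ' : ℂ) := by
    rw [hτ]
    field_simp
  unfold divPair pp
  simp only
  congr 1

theorem cpt_pp (d : ℂ) (hd : d ≠ 0) (τ : ℍ) (n k : ℕ) :
    cpt (pp d hd τ) n k = (k : ℂ) * (d / n) := rfl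

/-- `disc_id`, `divPair_pp`, `U.disc_pp` (twice), `U.disc_pp_ne_zero`:
`disc L = (2π)¹² d⁻¹² Δ(τ)`, `disc L' = (2π)¹² n¹² d⁻¹² Δ(τ')`; cancel `(2π)¹² d⁻¹²`. -/
theorem disc_id_pp (d : ℂ) (hd : d ≠ 0) (τ τ' : ℍ) (n : ℕ) (hodd : Odd n)
    (hτ : (τ' : ℂ) = n * τ) :
    discriminant τ * disc (pp d hd τ) ^ (n - 1) =
      (n : ℂ) ^ 12 * (∏ k ∈ Finset.Ico 1 n, ℘'[pp d hd τ] ((k : ℂ) * (d / n))) ^ 4 *
        discriminant τ' := by
  have hn : n ≠ 0 := by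
    rintro rfl
    exact absurd hodd (by decide)
  have hn' : (n : ℂ) ≠ 0 := by exact_mod_cast hn
  have hd' : d / n ≠ 0 := div_ne_zero hd hn'
  have hL : disc (pp d hd τ) = _ := disc_pp d hd τ
  have hL' : disc (pp (d / n) hd' τ') = _ := disc_pp (d / n) hd' τ'
  have hΔ : disc (pp d hd τ) ≠ 0 := disc_pp_ne_zero d hd τ
  have hΔ' : disc (divPair (pp d hd τ) n hn) ≠ 0 := by
    rw [divPair_pp d hd τ τ' n hn hτ hd']
    exact disc_pp_ne_zero (d / n) hd' τ'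
  have h := disc_id (pp d hd τ) n hn hodd hΔ hΔ'
  rw [divPair_pp d hd τ τ' n hn hτ hd', hL'] at h
  simp only [cpt_pp] at h
  obtain ⟨m, rfl⟩ : ∃ m, n = m + 1 := ⟨n - 1, by omega⟩
  rw [pow_succ (disc (pp d hd τ)) m] at h
  rw [Nat.add_sub_cancel]
  generalize (∏ k ∈ Finset.Ico 1 (m + 1), ℘'[pp d hd τ] ((k : ℂ) * (d / ((m + 1 : ℕ) : ℂ)))) = P
    at h ⊢
  generalize disc (pp d hd τ) ^ m = D at h ⊢
  rw [hL] at h
  have hπ : (π : ℂ) ≠ 0 := by exact_mod_cast Real.pi_ne_zero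
  have hc : (2 * (π : ℂ)) ^ 12 * (d ^ 12)⁻¹ ≠ 0 :=
    mul_ne_zero (pow_ne_zero _ (mul_ne_zero two_ne_zero hπ)) (inv_ne_zero (pow_ne_zero _ hd))
  apply mul_left_cancel₀ hc
  have h2 : ((d / ((m + 1 : ℕ) : ℂ)) ^ 12)⁻¹ = ((m + 1 : ℕ) : ℂ) ^ 12 * (d ^ 12)⁻¹ := by
    rw [div_pow, inv_div, div_eq_mul_inv]
  rw [h2] at h
  linear_combination -h

end Fermat.Agent.S15.Mod.D
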