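import Fermat.Agent.S15.Mod.D.Defs

/-!
# S15-MOD-D : the quotient `∏_k (℘_L (z + c_k) - e_j) / (℘_{L'} z - e'_j)` has no poles
-/

set_option autoImplicit false

open scoped Topology PeriodPair

namespace Fermat.Agent.S15.Mod.D


variable (L : PeriodPair) (n : ℕ) (hn : n ≠ 0)

/-- `∏_{k<n} (℘_L (z + c_k) - e)` -/
noncomputable def num (e : ℂ) (z : ℂ) : ℂ := ∏ k ∈ Finset.range n, (℘[L] (z + cpt L n k) - e)

/-- `℘_{L'} z - e'_j` -/
noncomputable def den (j : Fin 3) (z : ℂ) : ℂ :=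
  ℘[divPair L n hn] z - ev (divPair L n hn) (hp L) j

/-- the quotient -/
noncomputable def quo (j : Fin 3) (z : ℂ) : ℂ := num L n (ev L (hp L) j) z / den L n hn j z

end Fermat.Agent.S15.Mod.D
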