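import Fermat.Agent.S15.Mod.D.QDefs
import Fermat.Agent.S15.Mod.D.LatA
import Fermat.Agent.S15.Mod.D.OrdA

/-!
# S15-MOD-D : the quotient `∏_k (℘_L (z + c_k) - e_j) / (℘_{L'} z - e'_j)` has no poles
-/

set_option autoImplicit false

open scoped Topology PeriodPair

namespace Fermat.Agent.S15.Mod.D


variable (L : PeriodPair) (n : ℕ) (hn : n ≠ 0)

theorem meromorphicAt_num (e z : ℂ) : MeromorphicAt (num L n e) z := by
  unfold num
  exact MeromorphicAt.fun_prod fun k _ => meromorphicAt_wp_shift L (cpt L n k) e z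

theorem meromorphicAt_den (j : Fin 3) (z : ℂ) : MeromorphicAt (den L n hn j) z := by
  unfold den
  exact ((divPair L n hn).meromorphic_weierstrassP z).sub (MeromorphicAt.const _ z)

theorem meromorphicAt_quo (j : Fin 3) (z : ℂ) : MeromorphicAt (quo L n hn j) z := by
  unfold quo
  exact (meromorphicAt_num L n _ z).div (meromorphicAt_den L n hn j z)

/-- all `z + c_k ∉ L` by `mem_divPair_iff` -/
theorem analyticAt_num (e : ℂ) {z : ℂ} (hz : z ∉ (divPair L n hn).lattice) :
    AnalyticAt ℂ (num L n e) z := by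
  unfold num
  refine Finset.analyticAt_fun_prod _ fun k hk => analyticAt_wp_shift L e fun hmem => hz ?_
  exact (mem_divPair_iff L n hn z).2 ⟨k, hk, hmem⟩

theorem continuousAt_quo (j : Fin 3) {z : ℂ} (hz : z ∉ (divPair L n hn).lattice)
    (hne : ℘[divPair L n hn] z ≠ ev (divPair L n hn) (hp L) j) :
    ContinuousAt (quo L n hn j) z := by
  have h1 : AnalyticAt ℂ (num L n (ev L (hp L) j)) z := analyticAt_num L n hn _ hz
  have h2 : AnalyticAt ℂ (den L n hn j) z := by
    unfold den
    exact ((divPair L n hn).analyticOnNhd_weierstrassP z hz).sub analyticAt_const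
  unfold quo
  exact h1.continuousAt.div h2.continuousAt (sub_ne_zero.2 hne)

end Fermat.Agent.S15.Mod.D
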