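import Fermat.Agent.S15.Mod.D.QMer
import Fermat.Agent.S15.Mod.D.LatB
import Fermat.Agent.S15.Mod.D.LatC
import Fermat.Agent.S15.Mod.D.OrdB

/-!
# S15-MOD-D : the quotient `∏_k (℘_L (z + c_k) - e_j) / (℘_{L'} z - e'_j)` has no poles
-/

set_option autoImplicit false

open scoped Topology PeriodPair

namespace Fermat.Agent.S15.Mod.D

open Fermat.Agent.S15.Mod.U

variable (L : PeriodPair) (n : ℕ) (hn : n ≠ 0)

/-- if all the factors but the `k₀`-th are analytic at `z`, the order of `num` is at least the order of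
the `k₀`-th factor. -/
theorem QNum_order_le (e z : ℂ) {k₀ : ℕ} (hk₀ : k₀ ∈ Finset.range n)
    (han : ∀ k ∈ Finset.range n, k ≠ k₀ → z + cpt L n k ∉ L.lattice) :
    meromorphicOrderAt (fun w => ℘[L] (w + cpt L n k₀) - e) z ≤ meromorphicOrderAt (num L n e) z := by
  have hnum : num L n e = ∏ k ∈ Finset.range n, fun w => ℘[L] (w + cpt L n k) - e := by
    funext w
    rw [Finset.prod_apply]
    rfl
  rw [hnum, meromorphicOrderAt_prod fun k _ => meromorphicAt_wp_shift L _ e z,
    ← Finset.add_sum_erase _ _ hk₀]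
  refine le_add_of_nonneg_right (Finset.sum_nonneg fun k hk => ?_)
  rw [Finset.mem_erase] at hk
  exact (analyticAt_wp_shift L e (han k hk.2 hk.1)).meromorphicOrderAt_nonneg

/-- `z ∈ L'`: exactly one factor (`mem_divPair_iff`, `unique_shift`) has a double pole
(`order_wp_shift_pole`), the others are analytic; `meromorphicOrderAt_prod`. -/
theorem order_num_pole (e : ℂ) {z : ℂ} (hz : z ∈ (divPair L n hn).lattice) :
    (-2 : ℤ) ≤ meromorphicOrderAt (num L n e) z := by
  obtain ⟨k₀, hk₀, hmem⟩ := (mem_divPair_iff L n hn z).1 hz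
  rw [← order_wp_shift_pole L e hmem]
  refine QNum_order_le L n e z hk₀ fun k hk hne hk' => hne ?_
  exact unique_shift L n hn (Finset.mem_range.1 hk) (Finset.mem_range.1 hk₀) hk' hmem

/-- `z - h_j ∈ L'`: there is `k < n` with `z - h_j + c_k ∈ L`; the `k`-th factor is
`℘ (w + c_k) - ℘ (z + c_k)` (periodicity) and has order `≥ 2` (`two_le_order_of_half`), the others are
analytic at `z` (`z ∉ L'`). -/
theorem order_num_half (hodd : Odd n) (j : Fin 3) {z : ℂ}
    (hz : z - hp L j ∈ (divPair L n hn).lattice) :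
    (2 : ℤ) ≤ meromorphicOrderAt (num L n (ev L (hp L) j)) z := by
  obtain ⟨k₀, hk₀, hmem⟩ := (mem_divPair_iff L n hn _).1 hz
  have hzL' : z ∉ (divPair L n hn).lattice := by
    intro h
    apply (halfSys_div L n hn hodd).not_mem j
    have := sub_mem h hz
    rwa [sub_sub_cancel] at this
  have hsplit : z + cpt L n k₀ = hp L j + (z - hp L j + cpt L n k₀) := by ring
  have hev : ev L (hp L) j = ℘[L] (z + cpt L n k₀) := by
    rw [hsplit]
    exact (L.weierstrassP_add_coe (hp L j) ⟨_, hmem⟩).symm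
  have h1 : z + cpt L n k₀ ∉ L.lattice := by
    intro h
    apply (halfSys_self L).not_mem j
    have := sub_mem h hmem
    rwa [hsplit, add_sub_cancel_right] at this
  have h2 : 2 * (z + cpt L n k₀) ∈ L.lattice := by
    have : 2 * (z + cpt L n k₀) = 2 * hp L j + ((z - hp L j + cpt L n k₀) +
        (z - hp L j + cpt L n k₀)) := by ring
    rw [this]
    exact add_mem ((halfSys_self L).two_mem j) (add_mem hmem hmem)
  refine le_trans (two_le_order_of_half L h1 h2) ?_
  rw [← hev]
  refine QNum_order_le L n _ z hk₀ fun k hk _ hk' => hzL' ?_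
  exact (mem_divPair_iff L n hn z).2 ⟨k, hk, hk'⟩

end Fermat.Agent.S15.Mod.D
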