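import Fermat.Agent.S15.Mod.D.Defs
import Fermat.Agent.S15.Mod.U.Inj

/-!
# S15-MOD-D : the values `e_i = ℘ (h_i)` are the three distinct roots of `4x³ - g₂x - g₃`
-/

set_option autoImplicit false

open scoped Topology PeriodPair

namespace Fermat.Agent.S15.Mod.D

open Fermat.Agent.S15.Mod.U

variable {M : PeriodPair} {h : Fin 3 → ℂ}

/-- pure algebra (`ℂ` algebraically closed): a cubic `4x³ - g₂x - g₃` with `g₂³ ≠ 27 g₃²` has three
pairwise distinct roots.  [`IsAlgClosed.exists_root` three times / `IsAlgClosed.splits`; a repeated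
root `r` satisfies `12 r² = g₂` too, then `U.disc_eq_zero_of_double_root`.] -/
theorem exists_three_roots {g2 g3 : ℂ} (h : g2 ^ 3 - 27 * g3 ^ 2 ≠ 0) :
    ∃ r : Fin 3 → ℂ, Function.Injective r ∧
      ∀ x : ℂ, 4 * x ^ 3 - g2 * x - g3 = 4 * (x - r 0) * (x - r 1) * (x - r 2) := by
  -- a first root
  obtain ⟨r0, hr0⟩ : ∃ r0 : ℂ, 4 * r0 ^ 3 - g2 * r0 - g3 = 0 := by
    have hdeg : (Polynomial.C (4 : ℂ) * Polynomial.X ^ 3 + Polynomial.C 0 * Polynomial.X ^ 2 +
        Polynomial.C (-g2) * Polynomial.X + Polynomial.C (-g3)).degree = 3 :=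
      Polynomial.degree_cubic (by norm_num)
    obtain ⟨z, hz⟩ := IsAlgClosed.exists_root _ (by rw [hdeg]; norm_num)
    refine ⟨z, ?_⟩
    simp only [Polynomial.IsRoot.def, Polynomial.eval_add, Polynomial.eval_mul, Polynomial.eval_C,
      Polynomial.eval_pow, Polynomial.eval_X] at hz
    linear_combination hz
  -- the square root of the discriminant of the quadratic cofactor
  obtain ⟨s, hs⟩ := IsAlgClosed.exists_pow_nat_eq (g2 - 3 * r0 ^ 2) (n := 2) (by norm_num)
  have hg2 : g2 = s ^ 2 + 3 * r0 ^ 2 := by linear_combination -hs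
  have hg3 : g3 = r0 * (r0 ^ 2 - s ^ 2) := by
    rw [hg2] at hr0
    linear_combination -hr0
  have hdisc : g2 ^ 3 - 27 * g3 ^ 2 = s ^ 2 * (s ^ 2 - 9 * r0 ^ 2) ^ 2 := by
    rw [hg2, hg3]
    ring
  rw [hdisc] at h
  have hs0 : s ≠ 0 := by
    rintro rfl
    exact h (by ring)
  have hs1 : s - 3 * r0 ≠ 0 := by
    intro h0
    exact h (by linear_combination (s ^ 2 * (s ^ 2 - 9 * r0 ^ 2) * (s + 3 * r0)) * h0)
  have hs2 : s + 3 * r0 ≠ 0 := by
    intro h0
    exact h (by linear_combination (s ^ 2 * (s ^ 2 - 9 * r0 ^ 2) * (s - 3 * r0)) * h0)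
  have h01 : r0 ≠ (-r0 + s) / 2 := by
    intro h0
    exact hs1 (by linear_combination (-2 : ℂ) * h0)
  have h02 : r0 ≠ (-r0 - s) / 2 := by
    intro h0
    exact hs2 (by linear_combination (2 : ℂ) * h0)
  have h12 : (-r0 + s) / 2 ≠ (-r0 - s) / 2 := by
    intro h0
    exact hs0 (by linear_combination h0)
  refine ⟨![r0, (-r0 + s) / 2, (-r0 - s) / 2], ?_, fun x => ?_⟩
  · intro i j hij
    fin_cases i <;> fin_cases j <;> first
      | rfl
      | exact absurd hij h01
      | exact absurd hij h02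
      | exact absurd hij h12
      | exact absurd hij.symm h01
      | exact absurd hij.symm h02
      | exact absurd hij.symm h12
  · simp only [Matrix.cons_val_zero, Matrix.cons_val_one, Matrix.cons_val]
    rw [hg2, hg3]
    ring

end Fermat.Agent.S15.Mod.D
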