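import Fermat.Agent.S15.Mod.D.RootsA
import Fermat.Agent.S15.Mod.U.Surj

/-!
# S15-MOD-D : the values `e_i = ℘ (h_i)` are the three distinct roots of `4x³ - g₂x - g₃`
-/

set_option autoImplicit false

open scoped Topology PeriodPair

namespace Fermat.Agent.S15.Mod.D

open Fermat.Agent.S15.Mod.U

variable {M : PeriodPair} {h : Fin 3 → ℂ}

theorem deriv_hp_eq_zero (H : HalfSys M h) (i : Fin 3) : ℘'[M] (h i) = 0 :=
  deriv_eq_zero_of_two_mul_mem M (H.two_mem i)

/-- `derivWeierstrassP_sq` at `h i` -/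
theorem cubic_ev (H : HalfSys M h) (i : Fin 3) :
    4 * ev M h i ^ 3 - M.g₂ * ev M h i - M.g₃ = 0 := by
  have h1 := M.derivWeierstrassP_sq (h i) (H.not_mem i)
  rw [deriv_hp_eq_zero H i] at h1
  unfold ev
  linear_combination -h1

/-- `x = ℘ w` (`U.wp_surj`), `℘' w ² = 0` (`derivWeierstrassP_sq`), so `2 w ∈ M` (`U.deriv_ne_zero`),
so `w - h i ∈ M` (`H.cover`) and `℘ w = ℘ (h i)` by periodicity. -/
theorem exists_ev_of_root (H : HalfSys M h) (hΔ : disc M ≠ 0) {x : ℂ}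
    (hx : 4 * x ^ 3 - M.g₂ * x - M.g₃ = 0) : ∃ i, x = ev M h i := by
  obtain ⟨w, hw, rfl⟩ := wp_surj M x
  have h1 := M.derivWeierstrassP_sq w hw
  rw [hx] at h1
  have h2 : ℘'[M] w = 0 := by simpa using h1
  have h3 : 2 * w ∈ M.lattice := by
    by_contra h3
    exact deriv_ne_zero M hΔ hw h3 h2
  obtain ⟨i, hi⟩ := H.cover w h3 hw
  refine ⟨i, ?_⟩
  have h4 := M.weierstrassP_sub_coe w ⟨w - h i, hi⟩
  have h5 : w - ((⟨w - h i, hi⟩ : M.lattice) : ℂ) = h i := by
    show w - (w - h i) = h i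
    ring
  rw [h5] at h4
  exact h4.symm

/-- the three roots of `exists_three_roots` are a permutation of `ev 0, ev 1, ev 2`. -/
theorem RootsB_exists_perm (H : HalfSys M h) (hΔ : disc M ≠ 0) :
    ∃ (r : Fin 3 → ℂ) (σ : Fin 3 ≃ Fin 3), Function.Injective r ∧
      (∀ x : ℂ, 4 * x ^ 3 - M.g₂ * x - M.g₃ = 4 * (x - r 0) * (x - r 1) * (x - r 2)) ∧
      ∀ j, r j = ev M h (σ j) := by
  obtain ⟨r, hr, hfac⟩ := exists_three_roots (g2 := M.g₂) (g3 := M.g₃) hΔ
  have hroot : ∀ j, 4 * r j ^ 3 - M.g₂ * r j - M.g₃ = 0 := by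
    intro j
    rw [hfac]
    fin_cases j <;> simp
  choose σ hσ using fun j => exists_ev_of_root H hΔ (hroot j)
  have hσi : Function.Injective σ := by
    intro a b hab
    apply hr
    rw [hσ a, hσ b, hab]
  have hσs : Function.Surjective σ := Finite.injective_iff_surjective.1 hσi
  exact ⟨r, Equiv.ofBijective σ ⟨hσi, hσs⟩, hr, hfac, hσ⟩

/-- the three distinct roots of `exists_three_roots` are among `ev 0, ev 1, ev 2`
(`exists_ev_of_root`): the induced map `Fin 3 → Fin 3` is injective, hence surjective. -/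
theorem ev_injective (H : HalfSys M h) (hΔ : disc M ≠ 0) : Function.Injective (ev M h) := by
  obtain ⟨r, σ, hr, -, hσ⟩ := RootsB_exists_perm H hΔ
  intro a b hab
  obtain ⟨a', rfl⟩ := σ.surjective a
  obtain ⟨b', rfl⟩ := σ.surjective b
  rw [← hσ a', ← hσ b'] at hab
  rw [hr hab]

theorem cubic_factor (H : HalfSys M h) (hΔ : disc M ≠ 0) (x : ℂ) :
    4 * x ^ 3 - M.g₂ * x - M.g₃ = 4 * (x - ev M h 0) * (x - ev M h 1) * (x - ev M h 2) := by
  obtain ⟨r, σ, hr, hfac, hσ⟩ := RootsB_exists_perm H hΔ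
  have h1 : ∏ j, (x - r j) = ∏ i, (x - ev M h i) := by
    rw [← Equiv.prod_comp σ (fun i => x - ev M h i)]
    exact Finset.prod_congr rfl fun j _ => by rw [hσ j]
  rw [Fin.prod_univ_three, Fin.prod_univ_three] at h1
  rw [hfac]
  linear_combination 4 * h1

end Fermat.Agent.S15.Mod.D
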